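import Fermat.Agent.LT.Compose.Data
import Fermat.Agent.LT.Glue.Params
import Fermat.Agent.LT.Lower.Main
import Fermat.Agent.LT.Quat.Exists
import Fermat.Agent.LT.Switch.Main
import Fermat.Agent.LT.Selmer.Main

/-!
# Residual modularity at `3` of semistable curves with multiplicative reduction at `2`

`residualThree_of_pointsInput`: given `PointsInput` (proved in `LT/Points/Final`), a semistable
model `W` with even discriminant is residually modular at `3` of a squarefree level, divisible by
`3` only if the discriminant is. It is used in `RT/Frey/Residual`. The proof: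

1. The switch of `LT/Switch/Main` gives `W'` satisfying `Good` (semistable, negative and even
   discriminant, odd valuations, no rational point of order two) with the traces of `W` modulo `3`.
2. For each `N` the Selmer argument of `LT/Selmer` gives boundedly many auxiliary primes; with the
   bad primes they form the level of a quaternion order (`LT/Quat/Exists`).
3. Its Hecke ring maps to `F₄[C]`, `C` the two part of the class group of `ℚ(√-rad W')`,
   congruently to `W'` (`LT/Glue/Params`), and the deformation argument lifts this to a system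
   modulo `2 ^ N` (`LT/Compose/System`).
4. Lowering at `2` removes the auxiliary primes (`LT/Lower/Main`): `W'` is modular of level
   `rad W'`, the product of its bad primes (`exists_eigenform`).

## References

* A. Wiles, *Modular elliptic curves and Fermat's Last Theorem*, Ann. of Math. (1995).
* R. Langlands, *Base change for GL(2)* (1980).
* J. Tunnell, *Artin's conjecture for representations of octahedral type*, Bull. AMS (1981).
* M. Eichler, *The basis problem for modular forms and the traces of the Hecke operators* (1973).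

The sources use the theorem of Langlands and Tunnell at this point. It is avoided here: the mod `3`
representation is moved to a curve with negative discriminant, whose residual representation at
`2` is dihedral, and that curve is proved modular `2`-adically by quaternionic theta series, class
groups of imaginary quadratic fields and level lowering at `2`.
-/

set_option autoImplicit false

noncomputable section

open Matrix

namespace Fermat.Agent.LT.Compose

open Fermat.Agent.LT.Curve (Good badSet)
open Fermat.Agent.LT.Glue (Lam CTwo omg eHom)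
open Fermat.Agent.LT.ClassBound (Negligible)
open WeierstrassCurve ModularFormClass CongruenceSubgroup

/-! ## The input on the points -/

/-- The input on the points of a curve satisfying `Good`: for quaternionic data `p` with
`p.d = rad W`, every point over a homomorphism of the Hecke ring congruent to the curve off a
negligible set (`CongrOff`) has a representation with the local properties `Facts` (`HasFacts`). -/
def PointsInput {W : WeierstrassCurve ℤ} (h : Good W) : Prop :=
  ∀ (p : Quat.Params), p.d = rad W → ∀ (π : p.CuspHecke →+* Lam (rad W)) (Z : Set ℕ),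
    Negligible Z → CongrOff h p π Z → HasFacts h p π

variable {W : WeierstrassCurve ℤ} {h : Good W}

/-! ## Modularity of the switched curve -/

/-- **Modularity of the switched curve** at level `rad W`, from the input on the points, given two
bad primes `l₁ ≡ 1` modulo `12` and `l₂ ≠ 2`. -/
theorem exists_eigenform (hpts : PointsInput h) {l₁ l₂ : ℕ} (h₁ : l₁ ∈ badSet W)
    (h₂ : l₂ ∈ badSet W) (hne : l₁ ≠ l₂) (h₁12 : l₁ % 12 = 1) (h₂2 : l₂ ≠ 2) [NeZero (rad W)] :
    ∃ g : CuspForm (Gamma0 (rad W)) 2, g.IsNormalizedEigenform ∧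
      ∀ l : ℕ, l.Prime → ¬ l ∣ rad W → qCoeff g l = (W.apOfModel l : ℂ) := by
  classical
  have hres := Curve.residual h
  have hri := resInput h
  -- `k` bounds the number of auxiliary primes; `Z` is negligible, independently of the level
  obtain ⟨k, hk⟩ := Selmer.exists_T hres
  obtain ⟨Z, hZ, hpi⟩ := hri.exists_pi
  obtain ⟨c, hc⟩ := Glue.exists_card_CTwo (rad W)
  have hl1 := prime_mem_badSet h₁
  have hl2 := prime_mem_badSet h₂
  have h₁2 : l₁ ≠ 2 := by omega
  refine Lower.exists_eigenform_of_systems ((dvd_rad_iff Nat.prime_two).mpr (two_mem_badSet h))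
    (repData h) (Nat.card (Lam (rad W))) k fun N => ?_
  -- lowering at `2` asks, for each `N`, for a system modulo `2 ^ N` at a level `rad W * ∏ T`
  obtain ⟨T, s', hTk, hall, hlines, hkill⟩ := hk l₁ (max N 2) _
    (Curve.lift h (by omega) h₁ h₂ hne h₁2 h₂2)
  have hQ : ∀ q ∈ T, AuxOK h (max N 2) q := fun q hq =>
    ⟨(hall q hq).1, (hall q hq).2.1, fun A hA F hF =>
      ⟨((hall q hq).2.2 A hA F hF).1, ((hall q hq).2.2 A hA F hF).2.1⟩⟩
  -- the auxiliary primes are inert in `ℚ(√-rad W)`: a quaternion algebra has this level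
  have hTq : ∀ q ∈ T, q.Prime ∧ q ≠ 2 ∧ ¬ q ∣ rad W ∧ jacobiSym (-(rad W : ℤ)) q = -1 := by
    intro q hq
    have : Fact q.Prime := ⟨(hQ q hq).1⟩
    refine ⟨(hQ q hq).1, (hQ q hq).ne_two,
      fun hd => (hQ q hq).2.1 ((dvd_rad_iff (hQ q hq).1).mp hd),
      jacobi_eq_neg_one h (hQ q hq).2.1 (hQ q hq).ne_two (frobAt_spec q)
        ((hQ q hq).2.2 _ (CFT.Local.padicPlace_liesOverPrime q) _ (frobAt_spec q)).1⟩
  obtain ⟨p, hpd, rfl, -, -⟩ := Quat.exists_params squarefree_rad (Or.inr (rad_mod_four h)) T hTq
    hl1 ((dvd_rad_iff hl1).mpr h₁) h₁12 hl2 ((dvd_rad_iff hl2).mpr h₂) h₂2 hne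
  -- the homomorphism of its Hecke ring to the group ring, congruent to the curve off `Z`
  obtain ⟨π, hπ, hne', hclos⟩ := hpi p hpd
  have hmax := piIdeal_isMaximal_of_finite π
  have hne0 : NeZero (rad W * ∏ q ∈ p.T, q) :=
    ⟨mul_ne_zero (NeZero.ne _) (Finset.prod_ne_zero_iff.mpr fun q hq => (hTq q hq).1.ne_zero)⟩
  refine ⟨p.T, hTk, fun q hq => ⟨(hTq q hq).1, (hTq q hq).2.2.1, moved_of_auxOK h (hQ q hq)⟩,
    hne0, ?_⟩
  -- the classes met off `Z` generate, so all those met do
  have hsub : {c : CTwo (rad W) | ∃ l : ℕ, l.Prime ∧ ¬ l ∣ p.level ∧ l ∉ Z ∧ π (p.tCusp l) =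
        omg (rad W) * (eHom (rad W) c : Lam (rad W)) +
          omg (rad W) * omg (rad W) * (eHom (rad W) c⁻¹ : Lam (rad W))} ⊆
      {c | ∃ l ∈ {l : ℕ | l.Prime ∧ ¬ l ∣ p.level}, π (p.tCusp l) =
        omg (rad W) * (eHom (rad W) c : Lam (rad W)) +
          omg (rad W) * omg (rad W) * (eHom (rad W) c⁻¹ : Lam (rad W))} :=
    fun x ⟨l, hl, hlv, _, e⟩ => ⟨l, ⟨hl, hlv⟩, e⟩
  -- the deformation argument at the points, modulo `2 ^ max N 2`
  obtain ⟨S⟩ := nonempty_system_of_d_eq p hpd
    (nonempty_system (h := h) (N := max N 2) hpd (le_max_right _ _) hQ hlines hkill hmax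
      (hpts p hpd π Z hZ hπ)
      (fun X _ _ f hlev hf hcomm hker _ => hri.bound f hlev hf hcomm hker)
      (Glue.omg_rel _) hc (Glue.unipotent _) (Glue.indep _) (hne'.mono hsub)
      (top_le_iff.mp (hclos.symm.le.trans (Subgroup.closure_mono hsub))))
  exact ⟨reduceSystem (le_max_left _ _) S⟩

/-! ## Residual modularity at `3` -/

/-- **Residual modularity at `3`** of a semistable curve which is multiplicative at `2`, from the
input on the points. -/
theorem residualThree_of_pointsInput
    (hpts : ∀ {W' : WeierstrassCurve ℤ} (h' : Good W'), PointsInput h')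
    (W : WeierstrassCurve ℤ) (hΔ : W.Δ ≠ 0) (hW : W.IsSemistableModel) (h2 : (2 : ℤ) ∣ W.Δ) :
    ∃ M : ℕ, 0 < M ∧ Squarefree M ∧ W.IsResiduallyModularOfLevel 3 M ∧
      (3 ∣ M → (3 : ℤ) ∣ W.Δ) := by
  -- the switched curve
  obtain ⟨W', hneg, hss, h2', hodd, ⟨l₁, l₂, hl₁, hl₂, hne, h₁12, h₂12, hd₁, hd₂⟩, hroot, hcong,
    -, h3', -, -⟩ := Switch.exists_switch W hΔ hW h2
  have h' : Good W' := ⟨hneg, hss, h2', hodd, hroot⟩
  have : NeZero (rad W') := ⟨rad_pos.ne'⟩
  -- it is modular of level `rad W'`
  obtain ⟨g, hg, hgW⟩ := exists_eigenform (hpts h')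
    ((Curve.mem_badSet h'.ne_zero).mpr ⟨hl₁, hd₁⟩) ((Curve.mem_badSet h'.ne_zero).mpr ⟨hl₂, hd₂⟩)
    hne h₁12 (by omega)
  -- so `W` is residually modular at `3` of that level
  obtain ⟨𝔪, h𝔪, h3m⟩ := FLTPrelim.exists_maximalIdeal_natCast_prime_mem (p := 3) (by norm_num)
  refine ⟨rad W', rad_pos, squarefree_rad, ⟨g, 𝔪, hg, h𝔪, h3m, fun l hl hgood hlM hl3 => ?_⟩,
    fun hd => h3' ((Curve.mem_badSet h'.ne_zero).mp ((dvd_rad_iff Nat.prime_three).mp hd)).2⟩
  have hgood' : W'.IsGoodPrimeFor l := fun hd =>
    hlM ((dvd_rad_iff hl).mpr ((Curve.mem_badSet h'.ne_zero).mpr ⟨hl, hd⟩))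
  obtain ⟨c, hc⟩ := hcong l hl hgood hgood' hl3
  refine ⟨(W'.apOfModel l : integralClosure ℤ ℂ), ?_, ?_⟩
  · rw [hgW l hl hlM]
    norm_cast
  · rw [← Int.cast_sub, hc]
    push_cast
    exact Ideal.mul_mem_right _ _ h3m

end Fermat.Agent.LT.Compose
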