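import Fermat.Agent.LT.Compose.System
import Fermat.Agent.LT.Glue.Residual

/-!
# The residual and `2`-adic data of a switched curve

For a curve satisfying `Good`: its residual representation in the shape of the glueing
(`resInput`) and its representations modulo the powers of `2` in the shape of the lowering
(`repData`), moved by the auxiliary primes (`moved_of_auxOK`). Used in `LT/Compose/Main`.
-/

set_option autoImplicit false

noncomputable section

namespace Fermat.Agent.LT.Compose

open Fermat.Agent.LT.Deform (M2)
open Fermat.Agent.LT.Curve (Good badSet eta resMat resRep rhoN)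
open Fermat.Agent.LT.Glue (ResInput)
open Fermat.Agent.CFT.Flat (inG)
open WeierstrassCurve

variable {W : WeierstrassCurve ℤ} (h : Good W)

/-- The residual data of the curve, in the shape of the glueing. -/
theorem resInput : ResInput (rad W) (resRep W h.ne_zero) (eta W h.ne_zero) where
  squarefree := squarefree_rad
  mod_four := rad_mod_four h
  locConst := (Curve.residual h).locConst
  surjective := (Curve.residual h).surjective
  sign := Curve.conjAct_w₀ h.ne_zero
  kernel := eta_eq_zero_iff h
  inertia v _ g hg hη := by
    by_cases hv : v ∈ badSet W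
    · rcases (Curve.residual h).line v hv g (inG_subset_dec v hg) with e | e
      · exact Units.ext e
      · exfalso
        have ht := Curve.isTransp_of_eta h.ne_zero (Curve.tau_spec h hv).eta
        rw [← e] at ht
        rw [Curve.eta_eq_one_of_transp h.ne_zero ht] at hη
        exact one_ne_zero hη
    · exact (Curve.residual h).unram v Fact.out hv _ (CFT.Local.padicPlace_liesOverPrime v) g hg

/-- The representations modulo powers of two, in the shape of the lowering. -/
def repData (n : ℕ) : Lower.RepData (n + 1) (rad W) fun l => W.apOfModel l where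
  pos := n.succ_pos
  rep := rhoN W h.ne_zero (n + 1)
  exists_level := Curve.exists_level_rhoN h.ne_zero (n + 1)
  unram := fun l hl hld A hA σ hσ => rhoN_inertia_eq_one h (n + 1) hl
    (fun hb => hld (((dvd_rad_iff hl).mpr hb).mul_left 2)) hA hσ
  trace_frob := fun l hl hld A hA σ hσ => (Curve.trace_rhoN h (n + 1) hl
    (fun hb => hld (((dvd_rad_iff hl).mpr hb).mul_left 2)) hA hσ).1
  det_frob := fun l hl hld A hA σ hσ => (Curve.trace_rhoN h (n + 1) hl
    (fun hb => hld (((dvd_rad_iff hl).mpr hb).mul_left 2)) hA hσ).2
  full := fun g hg => by
    obtain ⟨σ, hσ⟩ := (Curve.residual h).surjective ((Matrix.isUnit_iff_isUnit_det g).mpr hg).unit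
    exact ⟨σ, (Curve.map_rhoN h.ne_zero n.succ_pos σ).trans (congrArg Units.val hσ)⟩

/-- An auxiliary prime moves the representations modulo powers of two. -/
theorem moved_of_auxOK {N q : ℕ} (hq : AuxOK h N q) (n : ℕ) : (repData h n).Moved q := by
  intro A hA σ hσ e
  have ht := (hq.2.2 A hA σ hσ).1
  rw [show resMat W h.ne_zero σ = 1 from (Curve.map_rhoN h.ne_zero n.succ_pos σ).symm.trans e] at ht
  exact absurd ht (by decide)

end Fermat.Agent.LT.Compose
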