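import Fermat.Agent.LT.Curve.Data
import Fermat.Agent.LT.ClassBound.Quadratic
import Fermat.Agent.LT.Selmer.LocalOdd

/-!
# The quadratic field of a curve with odd valuations

Its radical `d = ∏ bad primes` is `2` modulo `4`, and the sign of the residual permutation is the
character of `ℚ(√-d)`.
-/

set_option autoImplicit false

noncomputable section

namespace Fermat.Agent.LT.Compose

open Fermat.Agent.Arith (QBar GQ)
open Fermat.Agent.LT.Curve (Good badSet eta resMat resRep)
open Fermat.Agent.LT.Selmer (ch)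
open Fermat.Agent.LT.ClassBound (Kd sqrtInt)

/-- The product of the bad primes. -/
def rad (W : WeierstrassCurve ℤ) : ℕ := ∏ p ∈ badSet W, p

variable {W : WeierstrassCurve ℤ}

theorem squarefree_prod_primes (S : Finset ℕ) (hS : ∀ p ∈ S, p.Prime) :
    Squarefree (∏ p ∈ S, p) :=
  Finset.squarefree_prod_of_pairwise_isCoprime (fun p hp q hq hpq => Nat.coprime_iff_isRelPrime.mp
    ((Nat.coprime_primes (hS p hp) (hS q hq)).mpr hpq)) fun p hp => (hS p hp).squarefree

/-- The primes dividing a product of primes are its factors. -/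
theorem dvd_prod_primes_iff {S : Finset ℕ} (hS : ∀ p ∈ S, p.Prime) {p : ℕ} (hp : p.Prime) :
    p ∣ ∏ q ∈ S, q ↔ p ∈ S := by
  refine ⟨fun h => ?_, fun h => Finset.dvd_prod_of_mem _ h⟩
  obtain ⟨q, hq, hpq⟩ := (hp.prime.dvd_finsetProd_iff _).mp h
  exact (Nat.prime_dvd_prime_iff_eq hp (hS q hq)).mp hpq ▸ hq

/-- The bad primes of a model are primes. -/
theorem prime_mem_badSet {p : ℕ} (hp : p ∈ badSet W) : p.Prime :=
  Nat.prime_of_mem_primeFactors hp

theorem rad_pos : 0 < rad W := Finset.prod_pos fun _ hp => (prime_mem_badSet hp).pos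

/-- The product of the bad primes is squarefree. -/
theorem squarefree_rad : Squarefree (rad W) :=
  squarefree_prod_primes _ fun _ hp => prime_mem_badSet hp

/-- The prime divisors of the radical are exactly the bad primes. -/
theorem dvd_rad_iff {p : ℕ} (hp : p.Prime) : p ∣ rad W ↔ p ∈ badSet W :=
  dvd_prod_primes_iff (fun _ => prime_mem_badSet) hp

/-- `2` is a bad prime of a good curve. -/
theorem two_mem_badSet (h : Good W) : 2 ∈ badSet W :=
  (Curve.mem_badSet h.ne_zero).mpr ⟨Nat.prime_two, by exact_mod_cast h.two_dvd⟩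

/-- The radical of a good curve is twice an odd number. -/
theorem rad_mod_four (h : Good W) : rad W % 4 = 2 := by
  have h2 : 2 ∣ rad W := (dvd_rad_iff Nat.prime_two).mpr (two_mem_badSet h)
  have h4 : ¬ 4 ∣ rad W := fun h4 =>
    Nat.prime_two.not_isUnit (squarefree_rad 2 (by simpa using h4))
  omega

theorem neg_rad_ne_zero : -(rad W : ℤ) ≠ 0 :=
  neg_ne_zero.mpr (Int.natCast_ne_zero.mpr rad_pos.ne')

theorem exists_sq_eq (h : Good W) : ∃ n : ℕ, W.Δ.natAbs * rad W = n * n := by
  refine ⟨∏ p ∈ badSet W, p ^ ((padicValInt p W.Δ + 1) / 2), ?_⟩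
  have e : W.Δ.natAbs = ∏ p ∈ badSet W, p ^ padicValInt p W.Δ := by
    conv_lhs => rw [← Nat.prod_factorization_pow_eq_self (Int.natAbs_ne_zero.mpr h.ne_zero)]
    rw [Finsupp.prod, Nat.support_factorization]
    refine Finset.prod_congr rfl fun p hp => ?_
    rw [Nat.factorization_def _ (Nat.prime_of_mem_primeFactors hp), padicValInt]
  rw [e, rad, ← Finset.prod_mul_distrib, ← Finset.prod_mul_distrib]
  refine Finset.prod_congr rfl fun p hp => ?_
  obtain ⟨k, hk⟩ := h.odd_val p (prime_mem_badSet hp) ((Curve.mem_badSet h.ne_zero).mp hp).2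
  rw [← pow_succ, hk, ← pow_add]
  congr 1
  omega

/-- The sign is the character of `ℚ(√-d)`. -/
theorem ch_neg_rad (h : Good W) (g : GQ) : ch (-(rad W : ℤ)) g = eta W h.ne_zero g := by
  obtain ⟨n, hn⟩ := exists_sq_eq h
  have hd : (-(rad W : ℤ)) ≠ 0 := neg_rad_ne_zero
  have hn0 : (n : ℤ) ≠ 0 := fun h0 => mul_ne_zero (Int.natAbs_ne_zero.mpr h.ne_zero) rad_pos.ne'
    (by rw [hn, show n = 0 by exact_mod_cast h0, mul_zero])
  have e : W.Δ * (-(rad W : ℤ)) = (n : ℤ) ^ 2 := by
    have : -W.Δ = (W.Δ.natAbs : ℤ) := by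
      rw [Int.natCast_natAbs, abs_of_neg h.neg]
    rw [sq, show W.Δ * -(rad W : ℤ) = -W.Δ * (rad W : ℤ) by ring, this]
    exact_mod_cast hn
  have h2 : ch (W.Δ * (-(rad W : ℤ))) g = 0 := by
    rw [e, Selmer.ch_pow hn0]
    exact zero_mul _
  rw [Selmer.ch_mul h.ne_zero hd, Curve.ch_Δ h.ne_zero] at h2
  exact (CharTwo.add_eq_zero.mp h2).symm

theorem eta_eq_zero_iff (h : Good W) (g : GQ) :
    eta W h.ne_zero g = 0 ↔ g ∈ (Kd (rad W)).fixingSubgroup := by
  have hd : (-(rad W : ℤ)) ≠ 0 := neg_rad_ne_zero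
  rw [← ch_neg_rad h]
  have hs := ClassBound.sqrtInt_sq (-(rad W : ℤ))
  refine ⟨fun h0 => ?_, fun hg => ?_⟩
  · have hfix : g (sqrtInt (-(rad W : ℤ))) = sqrtInt (-(rad W : ℤ)) := by
      rcases ClassBound.apply_sqrtInt g (-(rad W : ℤ)) with e | e
      · exact e
      · have : ch (-(rad W : ℤ)) g = 1 :=
          Selmer.ch_eq_of_sq hd hs (by rw [Selmer.pm_one, e, neg_one_mul])
        rw [h0] at this
        exact absurd this zero_ne_one
    rw [IntermediateField.mem_fixingSubgroup_iff]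
    exact (IntermediateField.forall_mem_adjoin_smul_eq_self_iff ℚ g).mpr
      fun x hx => (Set.mem_singleton_iff.mp hx).symm ▸ hfix
  · refine Selmer.ch_eq_of_sq hd hs ?_
    rw [Selmer.pm_zero, one_mul]
    exact (IntermediateField.mem_fixingSubgroup_iff _ _).mp hg _
      (IntermediateField.mem_adjoin_simple_self ℚ _)

/-- An unramified prime whose Frobenius elements are transpositions is inert. -/
theorem jacobi_eq_neg_one (h : Good W) {q : ℕ} [Fact q.Prime] (hq : q ∉ badSet W) (hq2 : q ≠ 2)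
    {F : GQ} (hF : (padicPlace q).IsFrobeniusAt F q)
    (ht : Selmer.IsTransp (resMat W h.ne_zero F)) : jacobiSym (-(rad W : ℤ)) q = -1 := by
  have hnd : ¬ (q : ℤ) ∣ -(rad W : ℤ) := fun hd =>
    hq ((dvd_rad_iff Fact.out).mp (Int.natCast_dvd_natCast.mp (Int.dvd_neg.mp hd)))
  have e := Selmer.ch_frobenius_unit hq2 hnd hF
  rw [ch_neg_rad h, Curve.eta_eq_one_of_transp h.ne_zero ht] at e
  rw [← jacobiSym.legendreSym.to_jacobiSym]
  by_contra hne
  rw [Selmer.resPar, if_neg hne] at e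
  exact one_ne_zero e

end Fermat.Agent.LT.Compose
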