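import Fermat.Agent.LT.Compose.Points

/-!
# Elements with trivial residual image have `2`-power order
-/

set_option autoImplicit false

noncomputable section

open Matrix

namespace Fermat.Agent.LT.Compose

open Fermat.Agent.Arith (QBar GQ)
open Fermat.Agent.LT.Deform (M2 Pts AmbAt repAt)

theorem exists_pow_two_pow_eq_one {R : Type*} [CommRing R] {M : ℕ} (h0 : ((2 ^ M : ℕ) : R) = 0)
    {X : M2 R} (ht : IsNilpotent (X.trace - 2)) (hd : IsNilpotent (X.det - 1)) :
    ∃ j, X ^ 2 ^ j = 1 := by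
  have hY2 : (X - 1) ^ 2 = (X.trace - 2) • X - (X.det - 1) • (1 : M2 R) := by
    rw [sq]
    ext i j
    fin_cases i <;> fin_cases j <;>
      simp [Matrix.mul_apply, Fin.sum_univ_two, Matrix.trace_fin_two, Matrix.det_fin_two] <;> ring
  have hnil : IsNilpotent (X - 1) := by
    obtain ⟨a, ha⟩ := ht
    obtain ⟨b, hb⟩ := hd
    have h1 : IsNilpotent ((X.trace - 2) • X) := ⟨a, by rw [smul_pow, ha, zero_smul]⟩
    have h2 : IsNilpotent ((X.det - 1) • (1 : M2 R)) := ⟨b, by rw [smul_pow, hb, zero_smul]⟩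
    obtain ⟨n, hn⟩ := ((Commute.one_right X).smul_right _ |>.smul_left _).isNilpotent_sub h1 h2
    exact ⟨2 * n, by rw [pow_mul, hY2, hn]⟩
  obtain ⟨n, hn⟩ := hnil
  -- congruent to one modulo two
  obtain ⟨r, hr⟩ := Commute.exists_add_pow_prime_pow_eq Nat.prime_two
    (Commute.one_left (X - 1)) n
  rw [add_sub_cancel, one_pow, show (X - 1) ^ 2 ^ n = 0 from
    pow_eq_zero_of_le n.lt_two_pow_self.le hn, add_zero] at hr
  have step : ∀ i : ℕ, ∃ R' : M2 R, X ^ 2 ^ (n + i) = 1 + (2 ^ (i + 1) : ℕ) • R' := by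
    intro i
    induction i with
    | zero =>
      refine ⟨1 * (X - 1) * r, ?_⟩
      rw [add_zero, hr, nsmul_eq_mul]
      simp [mul_assoc]
    | succ i ih =>
      obtain ⟨R', hR'⟩ := ih
      refine ⟨R' + (2 ^ i : ℕ) • (R' * R'), ?_⟩
      rw [← add_assoc, pow_succ 2 (n + i), pow_mul, hR', sq, mul_add, add_mul, add_mul, one_mul,
        mul_one, one_mul, smul_mul_smul_comm, smul_add, ← mul_smul]
      rw [show (2 : ℕ) ^ (i + 1) * 2 ^ (i + 1) = 2 ^ (i + 1 + 1) * 2 ^ i by ring,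
        pow_succ 2 (i + 1)]
      simp only [mul_smul, two_smul, smul_add]
      abel
  obtain ⟨R', hR'⟩ := step M
  refine ⟨n + M, ?_⟩
  have hM : ((2 ^ (M + 1) : ℕ) : R) = 0 := by rw [pow_succ, Nat.cast_mul, h0, zero_mul]
  rw [hR', ← Nat.cast_smul_eq_nsmul R, hM, zero_smul, add_zero]

theorem isNilpotent_red {M : ℕ} {x : A2} (hx : ‖(x : K2)‖₊ < 1) : IsNilpotent (red M x) := by
  have h0 : 0 < ‖(2 : K2) ^ M‖₊ := by simp
  obtain ⟨n, hn⟩ := exists_pow_lt_of_lt_one h0 hx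
  refine ⟨n, ?_⟩
  rw [← map_pow, Ideal.Quotient.eq_zero_iff_mem, Ideal.mem_span_singleton']
  refine ⟨⟨(x : K2) ^ n / 2 ^ M, (mem_padicIntegers_iff 2).mpr ?_⟩, Subtype.ext ?_⟩
  · rw [nnnorm_div, nnnorm_pow, div_le_one h0]
    exact hn.le
  · push_cast
    exact div_mul_cancel₀ _ (pow_ne_zero M two_ne_zero)

variable {T : Type*} [CommRing T] [Module.Finite ℤ T] [Module.Free ℤ T] [IsReduced T]
  {Λ : Type*} [CommRing Λ] {π : T →+* Λ} {t : ℕ → T} {L : ℕ} {r : GQ →* (M2 (ZMod 2))ˣ} {d : ℕ}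
  {Q : Finset ℕ} (M : ℕ) {ρ : Pts A2 π → GQ →* M2 A2}
  (hρ : ∀ θ : Pts A2 π, Facts t L r d Q θ.1 (ρ θ))

theorem isNilpotent_pi {ι : Type*} [Finite ι] {R : ι → Type*} [∀ i, MonoidWithZero (R i)]
    {x : ∀ i, R i} (h : ∀ i, IsNilpotent (x i)) : IsNilpotent x := by
  have := Fintype.ofFinite ι
  choose n hn using h
  exact ⟨∑ i, n i, funext fun i => pow_eq_zero_of_le
    (Finset.single_le_sum (fun j _ => Nat.zero_le (n j)) (Finset.mem_univ i)) (hn i)⟩

include hρ in
omit [Module.Free ℤ T] [IsReduced T] in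
theorem exists_repAt_pow_eq_one {g : GQ} (hg : r g = 1) :
    ∃ j, repAt A2 π ρ M (g ^ 2 ^ j) = 1 := by
  have := finite_pts (π := π)
  have h := exists_pow_two_pow_eq_one (two_pow_eq_zero' (π := π) M)
    (X := repAt A2 π ρ M g) (isNilpotent_pi fun θ => ?_) (isNilpotent_pi fun θ => ?_)
  · obtain ⟨j, hj⟩ := h
    exact ⟨j, by rw [map_pow, hj]⟩
  · have e : (repAt A2 π ρ M g).trace θ = red M (ρ θ g).trace :=
      ((AddMonoidHom.map_trace (Pi.evalRingHom
          (fun _ : Pts A2 π => A2 ⧸ Ideal.span {(2 : A2) ^ M}) θ).toAddMonoidHom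
        (repAt A2 π ρ M g)).trans
        (AddMonoidHom.map_trace (red M).toAddMonoidHom (ρ θ g)).symm)
    rw [Pi.sub_apply, e, Pi.ofNat_apply, ← map_ofNat (red M), ← map_sub]
    refine isNilpotent_red ?_
    rw [← mem_maximal_iff]
    refine sub_mem ?_ ?_
    · rw [mem_maximal_iff]
      have h0 := (hρ θ).residual g
      rw [hg, Units.val_one, Matrix.trace_one, Fintype.card_fin,
        show ((2 : ℕ) : ZMod 2) = 0 from rfl, ZMod.val_zero, Nat.cast_zero, sub_zero] at h0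
      exact h0
    · rw [mem_maximal_iff, show ((2 : A2) : K2) = 2 from rfl]
      have h2 := two_inv_notMem
      rw [mem_padicIntegers_iff, nnnorm_inv, not_le] at h2
      by_contra hn
      exact absurd h2 (not_lt.mpr (inv_le_one_of_one_le₀ (not_lt.mp hn)))
  · rw [Pi.sub_apply, Pi.one_apply, congrFun (det_repAt M hρ g) θ]
    obtain ⟨w, hw⟩ : Even (Curve.cycInt M g - 1) ∨ M = 0 := by
      rcases Nat.eq_zero_or_pos M with h | h
      · exact Or.inr h
      · exact Or.inl ((odd_cycInt h g).sub_odd odd_one)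
    · refine ⟨M, ?_⟩
      have h2 : (2 : A2 ⧸ Ideal.span {(2 : A2) ^ M}) ^ M = 0 := by
        have := two_pow_eq_zero M
        push_cast at this
        exact this
      simp only [Pi.intCast_apply]
      rw [← Int.cast_one, ← Int.cast_sub, hw]
      push_cast
      rw [← two_mul, mul_pow, h2, zero_mul]
    · exact ⟨M, by subst_vars; exact (subsingleton_iff_zero_eq_one.mp (by
        rw [← two_pow_eq_zero 0]; simp)).elim _ _⟩

end Fermat.Agent.LT.Compose
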