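import Fermat.Agent.LT.Compose.Field
import Fermat.Agent.LT.Compose.Unipotent
import Fermat.Agent.LT.Local.Unramified

/-!
# The input of the deformation argument for a switched curve

At every bad prime the chosen inertia element, at every auxiliary prime a Frobenius element.

The input at precision `M` is `input`.
-/

set_option autoImplicit false

noncomputable section

open Matrix

namespace Fermat.Agent.LT.Compose

open Fermat.Agent.Arith (QBar GQ)
open Fermat.Agent.LT.Deform (M2 OrdAt Pts AmbAt repAt evAt)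
open Fermat.Agent.LT.Curve (Good badSet eta resMat resRep rhoN tau cycInt)
open Fermat.Agent.Arith (cyclotomicHom)
open Fermat.Agent.LT.Selmer (dec IsTransp HasLines Killed)
open Fermat.Agent.CFT.Flat (inG decG inG_le_decG)
open WeierstrassCurve

/-! ## The element of each place -/

/-- The inertia group at a prime, empty if the index is not prime. -/
def inI (v : ℕ) : Set GQ :=
  if h : v.Prime then
    haveI : Fact v.Prime := ⟨h⟩
    ((inG v : Subgroup GQ) : Set GQ)
  else ∅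

theorem mem_inI {v : ℕ} [hv : Fact v.Prime] {g : GQ} : g ∈ inI v ↔ g ∈ inG v := by
  rw [inI, dif_pos hv.out]; rfl

/-- A Frobenius element at the chosen place above `v`. -/
def frobAt (v : ℕ) : GQ :=
  if h : v.Prime then
    haveI : Fact v.Prime := ⟨h⟩
    (Arith.exists_isFrobeniusAt (CFT.Local.padicPlace_liesOverPrime v) h).choose
  else 1

theorem frobAt_spec (v : ℕ) [hv : Fact v.Prime] : (padicPlace v).IsFrobeniusAt (frobAt v) v := by
  rw [frobAt, dif_pos hv.out]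
  exact (Arith.exists_isFrobeniusAt (CFT.Local.padicPlace_liesOverPrime v) hv.out).choose_spec

theorem frobAt_mem_dec (v : ℕ) [Fact v.Prime] : frobAt v ∈ dec v := by
  rw [Curve.dec_eq]
  exact (frobAt_spec v).choose

theorem inG_subset_dec (v : ℕ) [Fact v.Prime] {g : GQ} (hg : g ∈ inG v) : g ∈ dec v := by
  rw [Curve.dec_eq]
  exact inG_le_decG v hg

variable {W : WeierstrassCurve ℤ} (h : Good W)

/-- The element of each place. -/
def tauJ (v : ℕ) : GQ := if v ∈ badSet W then tau h v else frobAt v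

/-- An allowed auxiliary prime. -/
def AuxOK (N : ℕ) (q : ℕ) : Prop :=
  q.Prime ∧ q ∉ badSet W ∧ ∀ A : ValuationSubring QBar, A.LiesOverPrime q → ∀ F : GQ,
    A.IsFrobeniusAt F q → IsTransp (resMat W h.ne_zero F) ∧
      (rhoN W h.ne_zero N F - 1).det = 0

theorem AuxOK.ne_two {h : Good W} {N q : ℕ} (hq : AuxOK h N q) : q ≠ 2 :=
  fun e => hq.2.1 (e ▸ two_mem_badSet h)

/-- Outside the bad primes the representation modulo `2 ^ N` is trivial on inertia. -/
theorem rhoN_inertia_eq_one (N : ℕ) {l : ℕ} (hl : l.Prime) (hlS : l ∉ badSet W)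
    {A : ValuationSubring QBar} (hA : A.LiesOverPrime l) {σ : GQ}
    (hσ : σ ∈ A.inertiaSubgroupIn ℚ) : rhoN W h.ne_zero N σ = 1 := by
  show (Curve.rho2 W h.ne_zero σ).map (PadicInt.toZModPow N) = (1 : M2 (ZMod (2 ^ N)))
  rw [Curve.unram_rhoN h.ne_zero hl (fun hd => hlS ((Curve.mem_badSet h.ne_zero).mpr ⟨hl, hd⟩))
    (fun e => hlS (e ▸ two_mem_badSet h)) hA hσ, Matrix.map_one _ (map_zero _) (map_one _)]

/-- The reduction of the representation modulo `2 ^ M`. -/
theorem castHom_rhoN {N M : ℕ} (hNM : N ≤ M) (g : GQ) :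
    (ZMod.castHom (pow_dvd_pow 2 hNM) (ZMod (2 ^ N))).mapMatrix (rhoN W h.ne_zero M g) =
      rhoN W h.ne_zero N g := by
  show ((Curve.rho2 W h.ne_zero g).map (PadicInt.toZModPow M)).map _ =
    (Curve.rho2 W h.ne_zero g).map (PadicInt.toZModPow N)
  rw [Matrix.map_map]
  congr 1
  funext x
  exact RingHom.congr_fun (PadicInt.zmod_cast_comp_toZModPow N M hNM) x

theorem exists_ordAt_rhoN {N M : ℕ} (hNM : N ≤ M) {v : ℕ} [Fact v.Prime] (hv : v ∈ badSet W) :
    ∃ ε : GQ → ZMod (2 ^ N), (∀ s ∈ inG v, ε s = 1) ∧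
      OrdAt (rhoN W h.ne_zero N) (dec v) (cycInt M) ε := by
  obtain ⟨ε, hI, hord⟩ := Curve.exists_ordAt h M hv
  exact ⟨_, fun s hs => by rw [Function.comp_apply, hI s hs, map_one],
    hord.map (ZMod.castHom (pow_dvd_pow 2 hNM) (ZMod (2 ^ N))) _ (castHom_rhoN h hNM)⟩

theorem ordAt_rhoN_aux {N M : ℕ} (hNM : N ≤ M) {q : ℕ} [Fact q.Prime] (hq : AuxOK h N q) :
    OrdAt (rhoN W h.ne_zero N) (dec q) (cycInt M) fun _ => 1 := by
  have hA := CFT.Local.padicPlace_liesOverPrime q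
  have hF := frobAt_spec q
  set X := rhoN W h.ne_zero N (frobAt q) with hX
  have hdet : X.det = (q : ZMod (2 ^ N)) := by
    rw [hX, Curve.det_rhoN, Curve.cyclotomicHom_two_pow_frobenius hq.1 hq.ne_two hA hF]
  have h0 := (hq.2.2 _ hA _ hF).2
  rw [← hX] at h0
  have htr : X.trace = (q : ZMod (2 ^ N)) + 1 := by
    rw [Matrix.trace_fin_two]
    rw [Matrix.det_fin_two] at h0 hdet
    simp at h0
    linear_combination hdet - h0
  refine Deform.ordAt_of_frobenius _ (F := frobAt q) (fun g hg => ?_) ?_ htr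
  · rw [Curve.dec_eq] at hg
    obtain ⟨L, hLfin, hL⟩ := Curve.exists_level_rhoN h.ne_zero N
    obtain ⟨k, hk⟩ := Deform.exists_pow_frobenius_eq (rhoN W h.ne_zero N) L hL
      (fun t ht => rhoN_inertia_eq_one h N hq.1 hq.2.1 hA ht) hF hg
    refine ⟨k, hk, ?_⟩
    rw [intCast_cycInt_le hNM, ← Curve.det_rhoN h.ne_zero N, hk, Matrix.det_pow, ← hX, hdet]
  · have e : (X - (q : ZMod (2 ^ N)) • 1) * (X - 1) =
        (X.trace - ((q : ZMod (2 ^ N)) + 1)) • X + ((q : ZMod (2 ^ N)) - X.det) • 1 := by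
      ext i j
      fin_cases i <;> fin_cases j <;>
        simp [Matrix.mul_apply, Fin.sum_univ_two, Matrix.trace_fin_two, Matrix.det_fin_two] <;> ring
    rw [e, htr, hdet, sub_self, sub_self, zero_smul, zero_smul, add_zero]

theorem zmod_two_pow_eq_zero {N M : ℕ} (hNM : N ≤ M) : ((2 ^ M : ℕ) : ZMod (2 ^ N)) = 0 :=
  (ZMod.natCast_eq_zero_iff _ _).mpr (pow_dvd_pow 2 hNM)

theorem four_dvd_cycInt_sub_one {M : ℕ} (hM : 2 ≤ M) {g : GQ}
    (h5 : (cyclotomicHom (2 ^ 3) g : ZMod (2 ^ 3)) = 5) : (4 : ℤ) ∣ cycInt M g - 1 := by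
  refine (ZMod.intCast_zmod_eq_zero_iff_dvd _ 4).mp ?_
  have e := (intCast_cycInt_le hM g).trans (intCast_cycInt_le (by norm_num : 2 ≤ 3) g).symm
  have e3 : cycInt 3 g = 5 := by rw [cycInt, h5]; rfl
  rw [e3] at e
  show (((cycInt M g - 1 : ℤ)) : ZMod (2 ^ 2)) = 0
  rw [Int.cast_sub, e]
  decide

/-- A matrix reducing to the identity modulo two has trace near `2` and determinant near `1`. -/
private theorem isNilpotent_trace_det {N : ℕ} (hN0 : 0 < N) (X : M2 (ZMod (2 ^ N)))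
    (e : X.map (ZMod.castHom (dvd_pow_self 2 hN0.ne') (ZMod 2)) = 1) :
    IsNilpotent (X.trace - 2) ∧ IsNilpotent (X.det - 1) := by
  have key : ∀ x : ZMod (2 ^ N),
      ZMod.castHom (dvd_pow_self 2 hN0.ne') (ZMod 2) x = 0 → IsNilpotent x := fun x hx => by
    obtain ⟨z, rfl⟩ := ZMod.intCast_surjective x
    rw [map_intCast, ZMod.intCast_zmod_eq_zero_iff_dvd] at hx
    obtain ⟨w, rfl⟩ := hx
    refine ⟨N, ?_⟩
    push_cast
    rw [mul_pow, show (2 : ZMod (2 ^ N)) ^ N = ((2 ^ N : ℕ) : ZMod (2 ^ N)) by push_cast; rfl,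
      ZMod.natCast_self, zero_mul]
  refine ⟨key _ ?_, key _ ?_⟩
  · rw [map_sub, map_ofNat]
    have e' := AddMonoidHom.map_trace
      (ZMod.castHom (dvd_pow_self 2 hN0.ne') (ZMod 2)).toAddMonoidHom X
    rw [show X.map (ZMod.castHom (dvd_pow_self 2 hN0.ne') (ZMod 2)).toAddMonoidHom = 1 from e] at e'
    rw [show ZMod.castHom (dvd_pow_self 2 hN0.ne') (ZMod 2) X.trace =
      (1 : M2 (ZMod 2)).trace from e']
    decide
  · rw [map_sub, map_one, RingHom.map_det, RingHom.mapMatrix_apply, e, Matrix.det_one, sub_self]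

variable {T : Type} [CommRing T] [Module.Finite ℤ T] [Module.Free ℤ T] [IsReduced T]
  {Λ : Type} [CommRing Λ] {π : T →+* Λ} {t : ℕ → T} {L : ℕ} {Q : Finset ℕ} {M N : ℕ}
  {ρ : Pts A2 π → GQ →* M2 A2}
  (hρ : ∀ θ : Pts A2 π, Facts t L (resRep W h.ne_zero) (rad W) Q θ.1 (ρ θ))

include hρ in
omit [Module.Free ℤ T] [IsReduced T] in
theorem placeOK_tauJ (hN : 2 ≤ N) (hNM : N ≤ M) (hQ : ∀ q ∈ Q, AuxOK h N q)
    (v : {v // v ∈ badSet W ∪ Q}) :
    PlaceOK (repAt A2 π ρ M) (rhoN W h.ne_zero N) (dec v.1) (inI v.1) (tauJ h v.1) := by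
  obtain ⟨v, hv⟩ := v
  have hM : 0 < M := by omega
  by_cases hb : v ∈ badSet W
  · have : Fact v.Prime := ⟨prime_mem_badSet hb⟩
    obtain ⟨εA, hIA, hA⟩ := exists_ordAt_bad M hρ ((dvd_rad_iff Fact.out).mpr hb)
    obtain ⟨εB, hIB, hB⟩ := exists_ordAt_rhoN h hNM hb
    have hτ := (Curve.tau_spec h hb).mem
    rw [show tauJ h v = tau h v from if_pos hb]
    refine placeOK (two_pow_eq_zero' M) (zmod_two_pow_eq_zero hNM) hM hA hB (inG_subset_dec v hτ)
      (fun g hg => inG_subset_dec v (mem_inI.mp hg)) (hIA _ hτ) (hIB _ hτ)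
      (fun g hg => hIA g (mem_inI.mp hg)) (fun g hg => hIB g (mem_inI.mp hg)) ?_
    by_cases h2 : v = 2
    · subst h2
      refine Or.inr (Or.inr ⟨fun u => ?_,
        four_dvd_cycInt_sub_one (by omega) ((Curve.tau_spec h hb).five rfl)⟩)
      obtain ⟨s, hs, he⟩ := Curve.exists_inertia_cyclotomicHom_two_pow_eq
        (CFT.Local.padicPlace_liesOverPrime 2) u
      exact ⟨s, mem_inI.mpr hs, he⟩
    · exact Or.inl (Curve.cyclotomicHom_two_pow_inertia Fact.out h2
        (CFT.Local.padicPlace_liesOverPrime v) hτ)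
  · have hvQ : v ∈ Q := (Finset.mem_union.mp hv).resolve_left hb
    have : Fact v.Prime := ⟨(hQ v hvQ).1⟩
    rw [show tauJ h v = frobAt v from if_neg hb]
    exact placeOK (two_pow_eq_zero' M) (zmod_two_pow_eq_zero hNM) hM (ordAt_aux M hρ hvQ)
      (ordAt_rhoN_aux h hNM (hQ v hvQ)) (frobAt_mem_dec v)
      (fun g hg => inG_subset_dec v (mem_inI.mp hg)) rfl rfl (fun _ _ => rfl) (fun _ _ => rfl)
      (Or.inr (Or.inl ⟨fun _ _ => rfl, fun _ _ => rfl⟩))

/-! ## Both representations -/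

/-- The bound consumed: supplied by the class group. -/
def BoundBy (d : ℕ) (c : ℕ) : Prop :=
  ∀ (X : Type) (_ : Group X) (_ : Finite X) (f : GQ →* X),
    (∃ F : IntermediateField ℚ QBar, FiniteDimensional ℚ F ∧
      ∀ g : GQ, (∀ x ∈ F, g x = x) → f g = 1) →
    (∀ v : ℕ, ∀ [Fact v.Prime], ∀ s ∈ inG v, eta W h.ne_zero s = 0 → f s = 1) →
    (∀ g g', eta W h.ne_zero g = 0 → eta W h.ne_zero g' = 0 → Commute (f g) (f g')) →
    (∀ g, eta W h.ne_zero g = 0 → resRep W h.ne_zero g = 1 → ∃ j, f (g ^ 2 ^ j) = 1) →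
    d = rad W → Nat.card (f '' {g | eta W h.ne_zero g = 0}) ≤ 3 * c

omit [CommRing Λ] [Module.Finite ℤ T] [Module.Free ℤ T] [IsReduced T] [CommRing T] in
include h in
/-- A prime outside the level is odd and not bad. -/
private theorem good_of_not_dvd (hL : ∀ l : ℕ, l.Prime → (l ∣ L ↔ l ∈ badSet W ∪ Q)) {l : ℕ}
    (hl : l.Prime) (hlL : ¬ l ∣ L) : l ≠ 2 ∧ l ∉ badSet W := by
  have hb : l ∉ badSet W := fun hb => hlL ((hL l hl).mpr (Finset.mem_union_left _ hb))
  exact ⟨fun e => hb (e ▸ two_mem_badSet h), hb⟩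

include hρ in
omit [Module.Free ℤ T] [IsReduced T] in
/-- Frobenius at a prime outside the level has the two expected traces. -/
private theorem trace_frobenius (hL : ∀ l : ℕ, l.Prime → (l ∣ L ↔ l ∈ badSet W ∪ Q)) {l : ℕ}
    (hl : l.Prime) (hlL : ¬ l ∣ L) {B : ValuationSubring QBar} (hB : B.LiesOverPrime l) {σ : GQ}
    (hσ : B.IsFrobeniusAt σ l) :
    (repAt A2 π ρ M σ).trace = evAt A2 π M (t l) ∧
      (rhoN W h.ne_zero N σ).trace = (W.apOfModel l : ZMod (2 ^ N)) :=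
  ⟨trace_repAt_frobenius M hρ hl hlL (good_of_not_dvd h hL hl hlL).1 hB hσ,
    (Curve.trace_rhoN h N hl (good_of_not_dvd h hL hl hlL).2 hB hσ).1⟩

include hρ in
omit [Module.Free ℤ T] [IsReduced T] in
/-- Both representations are unramified outside the places. -/
private theorem inertia_eq_one_outside (hL : ∀ l : ℕ, l.Prime → (l ∣ L ↔ l ∈ badSet W ∪ Q))
    {v : ℕ} (hv : v.Prime) (hvU : v ∉ badSet W ∪ Q) {B : ValuationSubring QBar}
    (hB : B.LiesOverPrime v) {σ : GQ} (hσ : σ ∈ B.inertiaSubgroupIn ℚ) :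
    repAt A2 π ρ M σ = 1 ∧ rhoN W h.ne_zero N σ = 1 := by
  have hvL : ¬ v ∣ L := fun hd => hvU ((hL v hv).mp hd)
  obtain ⟨hv2, hb⟩ := good_of_not_dvd h hL hv hvL
  exact ⟨repAt_inertia M hρ hv hvL hv2 hB hσ, rhoN_inertia_eq_one h N hv hb hB hσ⟩

include hρ in
omit [Module.Free ℤ T] [IsReduced T] in
/-- A finite extension of `ℚ` splits both representations. -/
private theorem exists_level_both : ∃ F : IntermediateField ℚ QBar, FiniteDimensional ℚ F ∧
    ∀ g : GQ, (∀ x ∈ F, g x = x) → repAt A2 π ρ M g = 1 ∧ rhoN W h.ne_zero N g = 1 := by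
  obtain ⟨F₁, hF₁, hfix₁⟩ := exists_level_repAt M hρ
  obtain ⟨F₂, hF₂, hfix₂⟩ := Curve.exists_level_rhoN h.ne_zero N
  exact ⟨F₁ ⊔ F₂, inferInstance, fun g hg =>
    ⟨hfix₁ g fun x hx => hg x ((le_sup_left : F₁ ≤ F₁ ⊔ F₂) hx),
      hfix₂ g fun x hx => hg x ((le_sup_right : F₂ ≤ F₁ ⊔ F₂) hx)⟩⟩

include hρ in
omit [Module.Free ℤ T] [IsReduced T] in
/-- By Chebotarev, the two traces at any element are those of a prime outside the level. -/
private theorem exists_trace_eq (hL : ∀ l : ℕ, l.Prime → (l ∣ L ↔ l ∈ badSet W ∪ Q))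
    (hL0 : L ≠ 0) (g : GQ) :
    ∃ l ∈ {l : ℕ | l.Prime ∧ ¬ l ∣ L}, (repAt A2 π ρ M g).trace = evAt A2 π M (t l) ∧
      (rhoN W h.ne_zero N g).trace = (W.apOfModel l : ZMod (2 ^ N)) := by
  obtain ⟨F, hF, hfix⟩ := exists_level_both (M := M) (N := N) h hρ
  let f : GQ →* M2 (AmbAt A2 π M) × M2 (ZMod (2 ^ N)) :=
    (repAt A2 π ρ M).prod (rhoN W h.ne_zero N)
  obtain ⟨l, hl, hlZ, B, hB, σ, hσ, heq⟩ :=
    ClassBound.exists_frobenius_eq_avoiding f F
      (fun s hs => Prod.ext (hfix s hs).1 (hfix s hs).2) g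
      (ClassBound.negligible_finite (Z := {l : ℕ | l ∣ L})
        (L.divisors.finite_toSet.subset fun l hl =>
          Finset.mem_coe.mpr (Nat.mem_divisors.mpr ⟨hl, hL0⟩)))
  obtain ⟨h1, h2⟩ := trace_frobenius (M := M) (N := N) h hρ hL hl hlZ hB hσ
  have e₁ : repAt A2 π ρ M σ = repAt A2 π ρ M g := congrArg Prod.fst heq
  have e₂ : rhoN W h.ne_zero N σ = rhoN W h.ne_zero N g := congrArg Prod.snd heq
  exact ⟨l, ⟨hl, hlZ⟩, by rw [← e₁]; exact h1, by rw [← e₂]; exact h2⟩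

/-- The element of each place moves the residual representation. -/
private theorem resRep_tauJ_ne_one (hQ : ∀ q ∈ Q, AuxOK h N q) {v : ℕ} (hv : v ∈ badSet W ∪ Q) :
    resRep W h.ne_zero (tauJ h v) ≠ 1 := by
  intro e
  by_cases hb : v ∈ badSet W
  · rw [show tauJ h v = tau h v from if_pos hb] at e
    exact Curve.resMat_ne_one_of_eta h.ne_zero
      (by rw [(Curve.tau_spec h hb).eta]; exact one_ne_zero) (congrArg Units.val e)
  · have hvQ : v ∈ Q := (Finset.mem_union.mp hv).resolve_left hb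
    have : Fact v.Prime := ⟨(hQ v hvQ).1⟩
    rw [show tauJ h v = frobAt v from if_neg hb] at e
    obtain ⟨ht, -⟩ := (hQ v hvQ).2.2 _ (CFT.Local.padicPlace_liesOverPrime v) _ (frobAt_spec v)
    rw [show resMat W h.ne_zero (frobAt v) = (resRep W h.ne_zero (frobAt v) : M2 (ZMod 2))
      from rfl, e] at ht
    exact absurd ht (by decide)

/-- The residual matrix of the element of each place is the one given for that place. -/
private theorem resRep_tauJ_eq (hQ : ∀ q ∈ Q, AuxOK h N q) {s' : ℕ → M2 (ZMod 2)}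
    (hlines : HasLines (resRep W h.ne_zero) (badSet W) Q (fun v => resMat W h.ne_zero (tau h v)) s')
    {v : ℕ} (hv : v ∈ badSet W ∪ Q) :
    (resRep W h.ne_zero (tauJ h v) : M2 (ZMod 2)) = s' v := by
  by_cases hb : v ∈ badSet W
  · rw [show tauJ h v = tau h v from if_pos hb, hlines.1 v hb]
    rfl
  · have hvQ : v ∈ Q := (Finset.mem_union.mp hv).resolve_left hb
    have : Fact v.Prime := ⟨(hQ v hvQ).1⟩
    rw [show tauJ h v = frobAt v from if_neg hb, (hlines.2 v hvQ).2.2 _ (frobAt_spec v)]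

include hρ in
omit [Module.Free ℤ T] [IsReduced T] in
/-- An element killed by the residual representation has a `2`-power killed by both
representations. -/
private theorem exists_pow_eq_one_both (hN0 : 0 < N) {g : GQ}
    (hg : resRep W h.ne_zero g = 1) :
    ∃ j, repAt A2 π ρ M (g ^ 2 ^ j) = 1 ∧ rhoN W h.ne_zero N (g ^ 2 ^ j) = 1 := by
  obtain ⟨j, hj⟩ := exists_repAt_pow_eq_one M hρ hg
  have e := Curve.map_rhoN h.ne_zero hN0 g
  rw [hg, Units.val_one] at e
  obtain ⟨ht, hd⟩ := isNilpotent_trace_det hN0 (rhoN W h.ne_zero N g) e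
  obtain ⟨j', hj'⟩ := exists_pow_two_pow_eq_one (ZMod.natCast_self (2 ^ N)) ht hd
  refine ⟨j + j', ?_, ?_⟩
  · rw [pow_add, pow_mul, map_pow, hj, one_pow]
  · rw [pow_add, mul_comm, pow_mul, map_pow, map_pow, hj', one_pow]

variable [Algebra (ZMod 2) Λ] {ω : Λ} {C : Type*} [CommGroup C] [Fintype C] {e : C →* Λˣ} {k : ℕ}

/-! ## The input -/

include hρ in
omit [Module.Free ℤ T] [IsReduced T] in
/-- **The input at precision `M`.** -/
theorem input (hN : 2 ≤ N) (hNM : N ≤ M) (hQ : ∀ q ∈ Q, AuxOK h N q)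
    (hL : ∀ l : ℕ, l.Prime → (l ∣ L ↔ l ∈ badSet W ∪ Q)) (hL0 : L ≠ 0)
    {s' : ℕ → M2 (ZMod 2)}
    (hlines : HasLines (resRep W h.ne_zero) (badSet W) Q (fun v => resMat W h.ne_zero (tau h v)) s')
    (hkill : Killed (resRep W h.ne_zero) (badSet W) Q s')
    (hgen : Algebra.adjoin ℤ (t '' {l | l.Prime ∧ ¬ l ∣ L}) = ⊤)
    (hfin : (Set.range (evAt A2 π M)).Finite)
    (hunit : ∀ x : T, ¬ IsNilpotent (π x) → IsUnit (evAt A2 π M x))
    (hker : ∀ i ≤ N, ∀ x : T, (2 : AmbAt A2 π M) ^ i * evAt A2 π M x = 0 → π x = 0)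
    (hcongr : ∀ l : ℕ, l.Prime → ¬ l ∣ L → IsNilpotent (π (t l) - (W.apOfModel l : Λ)))
    (hbound : BoundBy h (rad W) (Fintype.card C))
    (homega : ω * ω + ω + 1 = 0) (hcard : Fintype.card C = 2 ^ k)
    (huni : ∀ c, IsNilpotent ((e c : Λ) - 1))
    (hindep : ∀ a b : C → ZMod 2,
      ∑ c, a c • (e c : Λ) + ω * ∑ c, b c • (e c : Λ) = 0 → a = 0 ∧ b = 0)
    (hne : {c | ∃ l ∈ {l : ℕ | l.Prime ∧ ¬ l ∣ L},
      π (t l) = ω * (e c : Λ) + ω * ω * (e c⁻¹ : Λ)}.Nonempty)
    (hclos : Subgroup.closure {c | ∃ l ∈ {l : ℕ | l.Prime ∧ ¬ l ∣ L},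
      π (t l) = ω * (e c : Λ) + ω * ω * (e c⁻¹ : Λ)} = ⊤) :
    Deform.Input t {l | l.Prime ∧ ¬ l ∣ L} (fun l => W.apOfModel l) (evAt A2 π M)
      (repAt A2 π ρ M) (rhoN W h.ne_zero N) (resRep W h.ne_zero) (eta W h.ne_zero)
      (fun v : {v // v ∈ badSet W ∪ Q} => dec v.1) (fun v => inI v.1) (fun v => tauJ h v.1)
      π ω e k := by
  have hN0 : 0 < N := by omega
  have hplace := placeOK_tauJ h hρ hN hNM hQ
  obtain ⟨F, hF, hfix⟩ := exists_level_both (M := M) (N := N) h hρ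
  refine
    { pos := hN0
      gen := hgen
      finite := hfin
      unit := hunit
      ker := hker
      congr := fun l hl => hcongr l hl.1 hl.2
      trace := exists_trace_eq h hρ hL hL0
      frob := fun l hl => ?_
      det := fun g => ⟨cycInt M g, odd_cycInt (by omega) g, det_repAt M hρ g,
        by rw [Curve.det_rhoN, intCast_cycInt_le hNM]⟩
      residual := Curve.map_rhoN h.ne_zero hN0
      span := Curve.span_of_surjective (Curve.residual h).surjective
      sign_add := Curve.eta_mul h.ne_zero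
      sign := Curve.conjAct_w₀ h.ne_zero
      trace_tau := fun j => (hplace j).trace
      comm := fun j => (hplace j).comm
      inertia := fun j => (hplace j).inertia
      moved := fun v => resRep_tauJ_ne_one h hQ v.2
      selmer := fun Z hZ => ?_
      bound := ?_
      omega := homega
      card := hcard
      unipotent := huni
      indep := hindep
      nonempty := hne
      closure := hclos }
  · -- `frob`: a Frobenius element at `l`
    obtain ⟨B, hB⟩ := Arith.exists_liesOverPrime hl.1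
    obtain ⟨σ, hσ⟩ := Arith.exists_isFrobeniusAt hB hl.1
    exact ⟨σ, trace_frobenius h hρ hL hl.1 hl.2 hB hσ⟩
  · -- `selmer`: the residual condition, as inertia outside the places is trivial at precision `M`
    simp_rw [fun v : {v // v ∈ badSet W ∪ Q} => resRep_tauJ_eq h hQ hlines v.2]
    refine hkill Z ⟨F, hF, fun g hg => hZ g (hfix g hg).1 (hfix g hg).2⟩
      fun v hv hvU B hB σ hσ => ?_
    obtain ⟨e₁, e₂⟩ := inertia_eq_one_outside (M := M) (N := N) h hρ hL hv hvU hB hσ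
    exact hZ σ e₁ e₂
  · -- `bound`: the class bound; a residually trivial element has a `2`-power killed
    intro X _ _ f hfk hfI hcomm
    refine hbound X inferInstance inferInstance f
      ⟨F, hF, fun g hg => hfk g (hfix g hg).1 (hfix g hg).2⟩ ?_ hcomm ?_ rfl
    · intro v _ s hs hη
      by_cases hv : v ∈ badSet W ∪ Q
      · exact hfI ⟨v, hv⟩ s (mem_inI.mpr hs) hη
      · obtain ⟨e₁, e₂⟩ := inertia_eq_one_outside (M := M) (N := N) h hρ hL Fact.out hv
          (CFT.Local.padicPlace_liesOverPrime v) hs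
        exact hfk s e₁ e₂
    · intro g _ hr
      obtain ⟨j, e₁, e₂⟩ := exists_pow_eq_one_both (M := M) (N := N) h hρ hN0 hr
      exact ⟨j, hfk _ e₁ e₂⟩

end Fermat.Agent.LT.Compose
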