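import Fermat.Agent.LT.Curve.Cyclotomic
import Fermat.Agent.LT.Local.Identities

/-!
# The three identities at a place, for two representations at once

For two representations which are ordinary on `D` with the `2`-adic cyclotomic character, in rings
killed by `2 ^ M`, the integral coefficients of the identities only depend on the character.
-/

set_option autoImplicit false

noncomputable section

open Matrix

namespace Fermat.Agent.LT.Compose

open Fermat.Agent.Arith (QBar GQ)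
open Fermat.Agent.LT.Deform (M2 OrdAt comb)
open Fermat.Agent.LT.Curve (cycInt)
open Fermat.Agent.Arith (cyclotomicHom)

theorem natCast_val_cyclotomicHom {k M : ℕ} (h : k ≤ M) (σ : GQ) :
    (((cyclotomicHom (2 ^ M) σ : ZMod (2 ^ M)).val : ℕ) : ZMod (2 ^ k)) =
      (cyclotomicHom (2 ^ k) σ : ZMod (2 ^ k)) := by
  have : NeZero (2 ^ k) := ⟨pow_ne_zero k two_ne_zero⟩
  obtain ⟨ζ, hζ⟩ : ∃ ζ : QBar, IsPrimitiveRoot ζ (2 ^ k) :=
    HasEnoughRootsOfUnity.exists_primitiveRoot QBar (2 ^ k)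
  have hM : ζ ^ 2 ^ M = 1 := by
    obtain ⟨j, rfl⟩ := Nat.exists_eq_add_of_le h
    rw [pow_add, pow_mul, hζ.pow_eq_one, one_pow]
  conv_rhs => rw [← ZMod.natCast_zmod_val (cyclotomicHom (2 ^ k) σ : ZMod (2 ^ k))]
  rw [ZMod.natCast_eq_natCast_iff']
  have e := (Arith.apply_root_eq_pow_cyclotomicHom σ hM).symm.trans
    (Arith.apply_root_eq_pow_cyclotomicHom σ hζ.pow_eq_one)
  rw [← pow_mod_orderOf, ← pow_mod_orderOf ζ (ZMod.val _), ← hζ.eq_orderOf] at e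
  exact hζ.pow_inj (Nat.mod_lt _ (NeZero.pos _)) (Nat.mod_lt _ (NeZero.pos _)) e

theorem intCast_cycInt_le {k M : ℕ} (h : k ≤ M) (σ : GQ) :
    ((cycInt M σ : ℤ) : ZMod (2 ^ k)) = (cyclotomicHom (2 ^ k) σ : ZMod (2 ^ k)) := by
  rw [cycInt, Int.cast_natCast, natCast_val_cyclotomicHom h]

/-- The `2`-adic cyclotomic character takes odd values. -/
theorem odd_cycInt {M : ℕ} (hM : 0 < M) (σ : GQ) : Odd (cycInt M σ) := by
  rw [← ZMod.intCast_eq_one_iff_odd]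
  have e : ((cycInt M σ : ℤ) : ZMod (2 ^ 1)) = 1 := by
    rw [intCast_cycInt_le hM]
    exact congrArg Units.val ((by decide : ∀ u : (ZMod (2 ^ 1))ˣ, u = 1) _)
  exact e

variable {M : ℕ} {S : Type*} [CommRing S]

theorem intCast_eq_of_zmod (h0 : ((2 ^ M : ℕ) : S) = 0) {a b : ℤ}
    (h : (a : ZMod (2 ^ M)) = b) : (a : S) = b := by
  rw [← sub_eq_zero, ← Int.cast_sub, ZMod.intCast_zmod_eq_zero_iff_dvd] at h
  obtain ⟨c, hc⟩ := h
  rw [← sub_eq_zero, ← Int.cast_sub, hc, Int.cast_mul, Int.cast_natCast, h0, zero_mul]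

/-- The properties of a place consumed by `Deform.Input`. -/
structure PlaceOK {A B : Type*} [CommRing A] [CommRing B] (ρA : GQ →* M2 A) (ρB : GQ →* M2 B)
    (D I : Set GQ) (τ : GQ) : Prop where
  trace : ∃ e : ℤ, Even e ∧ (ρA τ).trace = (e : A) ∧ (ρB τ).trace = (e : B)
  comm : ∀ g ∈ D, ∃ c d : GQ →₀ ℤ,
    ρA g * (ρA τ - 1) - (ρA τ - 1) * ρA g = (2 : ℤ) • comb ρA c d ∧
      ρB g * (ρB τ - 1) - (ρB τ - 1) * ρB g = (2 : ℤ) • comb ρB c d
  inertia : ∀ h ∈ I, ∃ c d : GQ →₀ ℤ,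
    (ρA h - 1) * (ρA τ - 1) = (2 : ℤ) • comb ρA c d ∧
      (ρB h - 1) * (ρB τ - 1) = (2 : ℤ) • comb ρB c d

section One

variable {ρ : GQ →* M2 S} {D : Set GQ} {χ : GQ → ℤ} {ε : GQ → S} (hρ : OrdAt ρ D χ ε)
  {τ : GQ} (hτ : τ ∈ D) (hετ : ε τ = 1)

include hρ hτ hετ in
theorem comm_zero (hβ : (χ τ : S) = 1) {g : GQ} (hg : g ∈ D) {γ : ℤ}
    (hγ : (1 + 2 * (γ : S)) * (χ g : S) = 1) :
    ρ g * (ρ τ - 1) - (ρ τ - 1) * ρ g = (2 : ℤ) • comb ρ (Deform.commC₂ τ g γ 0) 0 := by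
  rw [hρ.comm_eq hτ hετ (β := 0) (by simpa using hβ) hg hγ, Deform.commC₂, Deform.comb_add_left,
    Deform.comb_single, Finsupp.sum_single_index (zero_zsmul _)]
  simp only [← Int.cast_smul_eq_zsmul S]
  push_cast
  module

include hρ hτ hετ in
theorem comm_partner {g h : GQ} (hg : g ∈ D) (hh : h ∈ D) (hεh : ε h = 1)
    (hgh : (χ g : S) * (χ h : S) = 1) {γ w : ℤ} (hw : (χ τ : S) = 1 + 2 * ((2 * w : ℤ) : S))
    (hγ : (1 + 2 * (γ : S)) * (χ g : S) = 1) :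
    ρ g * (ρ τ - 1) - (ρ τ - 1) * ρ g =
      (2 : ℤ) • comb ρ (Deform.commC₂ τ g γ (2 * w)) (Finsupp.single (g * h) w) := by
  have ht : (ρ (g * h)).trace = ε g * (1 + 1) := by
    have e := congrArg Matrix.trace (hρ.mul g hg h hh)
    rw [hεh, one_smul, sub_mul, mul_sub, mul_sub, mul_one, mul_one, ← map_mul,
      Algebra.smul_mul_assoc, one_mul, Matrix.trace_sub, Matrix.trace_sub, Matrix.trace_sub,
      Matrix.trace_zero, Matrix.trace_smul, Matrix.trace_smul, Matrix.trace_one, hρ.trace g hg,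
      hρ.trace h hh, hεh, Fintype.card_fin, smul_eq_mul, smul_eq_mul] at e
    push_cast at e
    linear_combination e + ε g * hgh
  rw [hρ.comm_eq hτ hετ hw hg hγ, Deform.commC₂, Deform.comb_add_left, Deform.comb_single_single,
    Finsupp.sum_single_index (zero_zsmul _), ht]
  simp only [← Int.cast_smul_eq_zsmul S, smul_eq_mul]
  push_cast
  module

end One

section Two

variable {A B : Type*} [CommRing A] [CommRing B] (hA : ((2 ^ M : ℕ) : A) = 0)
  (hB : ((2 ^ M : ℕ) : B) = 0) (hM : 0 < M) {ρA : GQ →* M2 A} {ρB : GQ →* M2 B} {D I : Set GQ}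
  {τ : GQ} {εA : GQ → A} {εB : GQ → B} (hρA : OrdAt ρA D (cycInt M) εA)
  (hρB : OrdAt ρB D (cycInt M) εB) (hτ : τ ∈ D) (hID : I ⊆ D) (hτA : εA τ = 1) (hτB : εB τ = 1)
  (hIA : ∀ h ∈ I, εA h = 1) (hIB : ∀ h ∈ I, εB h = 1)

theorem exists_half (hM : 0 < M) (g : GQ) :
    ∃ β : ℤ, cycInt M g = 1 + 2 * β ∧ (cycInt M g : A) = 1 + 2 * (β : A) := by
  obtain ⟨β, hβ⟩ := odd_cycInt hM g
  exact ⟨β, by rw [hβ]; ring, by rw [hβ]; push_cast; ring⟩

theorem exists_inv (hM : 0 < M) (g : GQ) :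
    ∃ γ : ℤ, (((1 + 2 * γ) * cycInt M g : ℤ) : ZMod (2 ^ M)) = 1 := by
  obtain ⟨γ, hγ⟩ := odd_cycInt hM g⁻¹
  refine ⟨γ, ?_⟩
  rw [show 1 + 2 * γ = cycInt M g⁻¹ by linarith, Int.cast_mul, Curve.intCast_cycInt,
    Curve.intCast_cycInt, ← Units.val_mul, ← map_mul, inv_mul_cancel, map_one, Units.val_one]

theorem cast_mul_eq_one {R : Type*} [CommRing R] (h0 : ((2 ^ M : ℕ) : R) = 0) {a b : ℤ}
    (h : ((a * b : ℤ) : ZMod (2 ^ M)) = 1) : (a : R) * (b : R) = 1 := by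
  rw [← Int.cast_mul, intCast_eq_of_zmod h0 (b := 1) (by rw [h, Int.cast_one]), Int.cast_one]

include hA hB hM hρA hρB hτ hID hτA hτB hIA hIB in
/-- A place at which the character is trivial at `τ`, or the quotient character is trivial, or the
character is surjective on inertia and is `1` modulo `4` at `τ`. -/
theorem placeOK
    (hcase : cyclotomicHom (2 ^ M) τ = 1 ∨ ((∀ g ∈ D, εA g = 1) ∧ ∀ g ∈ D, εB g = 1) ∨
      ((∀ u, ∃ h ∈ I, cyclotomicHom (2 ^ M) h = u) ∧ (4 : ℤ) ∣ cycInt M τ - 1)) :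
    PlaceOK ρA ρB D I τ := by
  obtain ⟨β, hβ, hβA⟩ := exists_half (A := A) hM τ
  have hβB : (cycInt M τ : B) = 1 + 2 * (β : B) := by rw [hβ]; push_cast; ring
  refine ⟨⟨2 + 2 * β, ⟨1 + β, by ring⟩, hρA.trace_eq hτ hτA hβA, hρB.trace_eq hτ hτB hβB⟩,
    fun g hg => ?_, fun h hh => ?_⟩
  · obtain ⟨γ, hγ⟩ := exists_inv hM g
    have eA : (1 + 2 * (γ : A)) * (cycInt M g : A) = 1 := by simpa using cast_mul_eq_one hA hγ
    have eB : (1 + 2 * (γ : B)) * (cycInt M g : B) = 1 := by simpa using cast_mul_eq_one hB hγ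
    rcases hcase with h1 | ⟨h1, h2⟩ | ⟨h1, w, hw⟩
    · have e : ((cycInt M τ : ℤ) : ZMod (2 ^ M)) = ((1 : ℤ) : ZMod (2 ^ M)) := by
        rw [Curve.intCast_cycInt, h1, Units.val_one, Int.cast_one]
      exact ⟨_, 0, comm_zero hρA hτ hτA (by simpa using intCast_eq_of_zmod hA e) hg eA,
        comm_zero hρB hτ hτB (by simpa using intCast_eq_of_zmod hB e) hg eB⟩
    · exact ⟨_, 0, hρA.comm₁ hτ hτA hβA hg (h1 g hg) eA, hρB.comm₁ hτ hτB hβB hg (h2 g hg) eB⟩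
    · obtain ⟨h, hh, hcyc⟩ := h1 (cyclotomicHom (2 ^ M) g)⁻¹
      have hgh : ((cycInt M g * cycInt M h : ℤ) : ZMod (2 ^ M)) = 1 := by
        rw [Int.cast_mul, Curve.intCast_cycInt, Curve.intCast_cycInt, hcyc, Units.mul_inv]
      have hwA : (cycInt M τ : A) = 1 + 2 * ((2 * w : ℤ) : A) := by
        rw [show cycInt M τ = 1 + 2 * (2 * w) by linarith]; push_cast; ring
      have hwB : (cycInt M τ : B) = 1 + 2 * ((2 * w : ℤ) : B) := by
        rw [show cycInt M τ = 1 + 2 * (2 * w) by linarith]; push_cast; ring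
      exact ⟨_, _, comm_partner hρA hτ hτA hg (hID hh) (hIA h hh) (cast_mul_eq_one hA hgh) hwA eA,
        comm_partner hρB hτ hτB hg (hID hh) (hIB h hh) (cast_mul_eq_one hB hgh) hwB eB⟩
  · obtain ⟨β', hβ', hA'⟩ := exists_half (A := A) hM h
    have hB' : (cycInt M h : B) = 1 + 2 * (β' : B) := by rw [hβ']; push_cast; ring
    exact ⟨_, 0, hρA.inertia_eq hτ hτA (hID hh) (hIA h hh) hA',
      hρB.inertia_eq hτ hτB (hID hh) (hIB h hh) hB'⟩

end Two

end Fermat.Agent.LT.Compose
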