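import Fermat.Agent.LT.Compose.Place
import Fermat.Agent.LT.Deform.Main
import Fermat.Agent.CFT.Flat.Slots
import Fermat.Prelude.Def_GaloisRep_CompletionBridge
import Fermat.Agent.LT.Selmer.Defs

/-!
# The representation on the functions on the points

Facts about the representation at each point give those for the functions on the points modulo
`2 ^ M`.
-/

set_option autoImplicit false

noncomputable section

open Matrix

namespace Fermat.Agent.LT.Compose

open Fermat.Agent.Arith (QBar GQ)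
open Fermat.Agent.LT.Deform (M2 OrdAt LineAt Pts AmbAt repAt evAt piIdeal pointIdeal)
open Fermat.Agent.LT.Curve (cycInt)
open Fermat.Agent.Arith (cyclotomicHom)
open Fermat.Agent.LT.Selmer (dec)
open Fermat.Agent.CFT.Flat (inG)

/-- The values. -/
abbrev K2 : Type := PadicAlgCl 2

/-- The integral values. -/
abbrev A2 : ValuationSubring (PadicAlgCl 2) := padicIntegers 2

/-- `1 / 2` is not a `2`-adic integer. -/
theorem two_inv_notMem : (2 : K2)⁻¹ ∉ A2 := by
  rw [mem_padicIntegers_iff, nnnorm_inv, not_le]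
  have h : ‖(2 : K2)‖₊ = 2⁻¹ := by
    apply NNReal.coe_injective
    rw [coe_nnnorm, show (2 : K2) = algebraMap ℚ_[2] K2 2 by simp [map_ofNat],
      show ‖algebraMap ℚ_[2] K2 2‖ = ‖(2 : ℚ_[2])‖ from spectralNorm_extends _]
    simpa using Padic.norm_p (p := 2)
  rw [h, inv_inv]
  norm_num

/-- The maximal ideal of the integral values is the open unit ball. -/
theorem mem_maximal_iff {x : A2} :
    x ∈ IsLocalRing.maximalIdeal A2 ↔ ‖(x : K2)‖₊ < 1 := by
  rw [IsLocalRing.mem_maximalIdeal]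
  constructor
  · intro h
    by_contra hn
    have h1 : ‖(x : K2)‖₊ = 1 := le_antisymm ((mem_padicIntegers_iff 2).mp x.2) (not_lt.mp hn)
    have h0 : (x : K2) ≠ 0 := fun e => by simp [e] at h1
    refine h (IsUnit.of_mul_eq_one ⟨(x : K2)⁻¹, (mem_padicIntegers_iff 2).mpr ?_⟩ ?_)
    · rw [nnnorm_inv, h1, inv_one]
    · exact Subtype.ext (mul_inv_cancel₀ h0)
  · intro h hu
    obtain ⟨y, hy⟩ := hu.exists_right_inv
    have e := congrArg (fun z : A2 => ‖(z : K2)‖₊) hy
    simp only [MulMemClass.coe_mul, nnnorm_mul, OneMemClass.coe_one, nnnorm_one] at e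
    have := mul_le_mul_right ((mem_padicIntegers_iff 2).mp y.2) (‖(x : K2)‖₊)
    rw [e, mul_one] at this
    exact absurd this (not_le.mpr h)

variable {T : Type*} [CommRing T] {Λ : Type*} [CommRing Λ] (π : T →+* Λ)
  (t : ℕ → T) (L : ℕ) (r : GQ →* (M2 (ZMod 2))ˣ) (d : ℕ) (Q : Finset ℕ)

/-- The facts on a representation `ρ` at a point `θ`: continuous, unramified outside `2 L` with
traces `θ (t l)` at Frobenius, cyclotomic determinant, residual traces those of `r`, and lines at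
the primes of `Q` and at those dividing `d`. -/
structure Facts (θ : T →+* K2) (ρ : GQ →* M2 A2) : Prop where
  continuous : ∀ M : ℕ, ∃ F : IntermediateField ℚ QBar, FiniteDimensional ℚ F ∧
    ∀ g : GQ, (∀ x ∈ F, g x = x) → ∀ i j, (2 : A2) ^ M ∣ ρ g i j - (1 : M2 A2) i j
  unram : ∀ l : ℕ, l.Prime → ¬ l ∣ L → l ≠ 2 → ∀ B : ValuationSubring QBar, B.LiesOverPrime l →
    ∀ σ ∈ B.inertiaSubgroupIn ℚ, ρ σ = 1
  frobenius : ∀ l : ℕ, l.Prime → ¬ l ∣ L → l ≠ 2 → ∀ B : ValuationSubring QBar, B.LiesOverPrime l →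
    ∀ σ : GQ, B.IsFrobeniusAt σ l → (((ρ σ).trace : A2) : K2) = θ (t l) ∧ (ρ σ).det = (l : A2)
  det_congr : ∀ σ : GQ, ∀ m n : ℕ, (∀ ζ : QBar, ζ ^ (2 ^ n) = 1 → σ ζ = ζ ^ m) →
    (2 : A2) ^ n ∣ (ρ σ).det - (m : A2)
  residual : ∀ g : GQ,
    ‖(((ρ g).trace : A2) : K2) - ((r g : M2 (ZMod 2)).trace.val : K2)‖₊ < 1
  line_aux : ∀ q ∈ Q, LineAt ρ (dec q) fun _ => 1
  line_bad : ∀ v : ℕ, ∀ [Fact v.Prime], v ∣ d →
    ∃ ε : GQ → A2, LineAt ρ (dec v) ε ∧ ∀ s ∈ inG v, ε s = 1

section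

variable {π t L r d Q} [Module.Finite ℤ T] [Module.Free ℤ T] [IsReduced T] (M : ℕ)
  {ρ : Pts A2 π → GQ →* M2 A2} (hρ : ∀ θ : Pts A2 π, Facts t L r d Q θ.1 (ρ θ))

/-- The reduction to the values modulo `2 ^ M`. -/
abbrev red : A2 →+* A2 ⧸ Ideal.span {(2 : A2) ^ M} := Ideal.Quotient.mk _

theorem two_pow_eq_zero : ((2 ^ M : ℕ) : A2 ⧸ Ideal.span {(2 : A2) ^ M}) = 0 := by
  rw [← map_natCast (red M), Ideal.Quotient.eq_zero_iff_mem, Nat.cast_pow, Nat.cast_ofNat]
  exact Ideal.mem_span_singleton_self _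

omit [Module.Free ℤ T] [IsReduced T] in
/-- `2 ^ M` vanishes in the ring of values modulo `2 ^ M` at the points. -/
theorem two_pow_eq_zero' : ((2 ^ M : ℕ) : AmbAt A2 π M) = 0 :=
  funext fun _ => two_pow_eq_zero M

/-- The representation at one point, reduced. -/
def ptRep (θ : Pts A2 π) : GQ →* M2 (A2 ⧸ Ideal.span {(2 : A2) ^ M}) :=
  ((red M).mapMatrix).toMonoidHom.comp (ρ θ)

omit [Module.Free ℤ T] [IsReduced T] in
theorem eval_repAt (θ : Pts A2 π) (g : GQ) :
    (Pi.evalRingHom (fun _ : Pts A2 π => A2 ⧸ Ideal.span {(2 : A2) ^ M}) θ).mapMatrix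
      (repAt A2 π ρ M g) = ptRep M (ρ := ρ) θ g :=
  rfl

omit [Module.Free ℤ T] [IsReduced T] in
theorem finite_pts : Finite (Pts A2 π) := by
  have : Finite (T →+* K2) := Finite.of_injective RingHom.toIntAlgHom fun a b h =>
    RingHom.ext fun x => DFunLike.congr_fun h x
  exact Subtype.finite

omit [Module.Free ℤ T] [IsReduced T] in
include hρ in
theorem red_det (θ : Pts A2 π) (g : GQ) : red M (ρ θ g).det = (cycInt M g : A2 ⧸ _) := by
  obtain ⟨c, hc⟩ := (hρ θ).det_congr g _ M fun ζ hζ => Arith.apply_root_eq_pow_cyclotomicHom g hζ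
  rw [cycInt, Int.cast_natCast, ← map_natCast (red M), ← sub_eq_zero, ← map_sub, hc, map_mul,
    Ideal.Quotient.eq_zero_iff_mem.mpr (Ideal.mem_span_singleton_self _), zero_mul]

include hρ in
omit [Module.Free ℤ T] [IsReduced T] in
/-- The representation on the functions on the points has cyclotomic determinant. -/
theorem det_repAt (g : GQ) : (repAt A2 π ρ M g).det = (cycInt M g : AmbAt A2 π M) := by
  funext θ
  have e := RingHom.map_det (Pi.evalRingHom (fun _ : Pts A2 π => A2 ⧸ Ideal.span {(2 : A2) ^ M}) θ)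
    (repAt A2 π ρ M g)
  rw [eval_repAt M θ g] at e
  refine e.trans (((red M).map_det _).symm.trans ?_)
  rw [red_det M hρ θ g]
  simp

include hρ in
omit [Module.Free ℤ T] [IsReduced T] in
theorem ordAt_aux {q : ℕ} (hq : q ∈ Q) :
    OrdAt (repAt A2 π ρ M) (dec q) (cycInt M) fun _ => 1 :=
  OrdAt.pi (ρi := ptRep M) (fun θ g => eval_repAt M θ g) (ε := fun _ _ => 1) fun θ => by
    have h := ((hρ θ).line_aux q hq).ordAt (red M) (ptRep M θ) (fun g => rfl)
      (χ := cycInt M) fun g _ => red_det M hρ θ g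
    have e : (red M ∘ fun _ : GQ => (1 : A2)) = fun _ => 1 := funext fun _ => map_one _
    rw [e] at h
    exact h

include hρ in
omit [Module.Free ℤ T] [IsReduced T] in
theorem exists_ordAt_bad {v : ℕ} [Fact v.Prime] (hv : v ∣ d) :
    ∃ ε : GQ → AmbAt A2 π M, (∀ s ∈ inG v, ε s = 1) ∧
      OrdAt (repAt A2 π ρ M) (dec v) (cycInt M) ε := by
  choose ε hε hI using fun θ => (hρ θ).line_bad v hv
  exact ⟨fun g θ => red M (ε θ g), fun s hs => funext fun θ => by
      show red M (ε θ s) = 1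
      rw [hI θ s hs, map_one],
    OrdAt.pi (ρi := ptRep M) (fun θ g => eval_repAt M θ g) fun θ =>
      (hε θ).ordAt (red M) (ptRep M θ) (fun g => rfl) fun g _ => red_det M hρ θ g⟩

include hρ in
omit [Module.Free ℤ T] [IsReduced T] in
theorem exists_level_repAt : ∃ F : IntermediateField ℚ QBar, FiniteDimensional ℚ F ∧
    ∀ g : GQ, (∀ x ∈ F, g x = x) → repAt A2 π ρ M g = 1 := by
  choose F hF hfix using fun θ => (hρ θ).continuous M
  have := finite_pts (π := π)
  refine ⟨⨆ θ, F θ, IntermediateField.finiteDimensional_iSup_of_finite, fun g hg => ?_⟩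
  refine Matrix.ext fun i j => funext fun θ => ?_
  obtain ⟨c, hc⟩ := hfix θ g (fun x hx => hg x (le_iSup F θ hx)) i j
  have e : red M (ρ θ g i j) = red M ((1 : M2 A2) i j) := by
    rw [← sub_eq_zero, ← map_sub, hc, map_mul,
      Ideal.Quotient.eq_zero_iff_mem.mpr (Ideal.mem_span_singleton_self _), zero_mul]
  refine e.trans ?_
  by_cases hij : i = j <;> simp [Matrix.one_apply, hij]

omit [Module.Free ℤ T] [IsReduced T] in
include hρ in
theorem repAt_inertia {l : ℕ} (hl : l.Prime) (hlL : ¬ l ∣ L) (hl2 : l ≠ 2)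
    {B : ValuationSubring QBar} (hB : B.LiesOverPrime l) {σ : GQ}
    (hσ : σ ∈ B.inertiaSubgroupIn ℚ) : repAt A2 π ρ M σ = 1 := by
  refine Matrix.ext fun i j => funext fun θ => ?_
  show red M (ρ θ σ i j) = _
  rw [(hρ θ).unram l hl hlL hl2 B hB σ hσ]
  by_cases hij : i = j <;> simp [Matrix.one_apply, hij]

omit [Module.Free ℤ T] [IsReduced T] in
include hρ in
theorem trace_repAt_frobenius {l : ℕ} (hl : l.Prime) (hlL : ¬ l ∣ L) (hl2 : l ≠ 2)
    {B : ValuationSubring QBar} (hB : B.LiesOverPrime l) {σ : GQ} (hσ : B.IsFrobeniusAt σ l) :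
    (repAt A2 π ρ M σ).trace = evAt A2 π M (t l) := by
  funext θ
  obtain ⟨e, -⟩ := (hρ θ).frobenius l hl hlL hl2 B hB σ hσ
  show (repAt A2 π ρ M σ).trace θ = red M ⟨θ.1 (t l), _⟩
  rw [show (⟨θ.1 (t l), Deform.apply_mem_subring A2 θ.1 (t l)⟩ : A2) = (ρ θ σ).trace from
    Subtype.ext e.symm]
  have h := AddMonoidHom.map_trace
    (Pi.evalRingHom (fun _ : Pts A2 π => A2 ⧸ Ideal.span {(2 : A2) ^ M}) θ).toAddMonoidHom
    (repAt A2 π ρ M σ)
  exact h.trans (AddMonoidHom.map_trace (red M).toAddMonoidHom (ρ θ σ)).symm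

end

end Fermat.Agent.LT.Compose
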