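import Fermat.Agent.LT.Compose.Data

/-!
# The residual representation at the bad primes: facts consumed on the points
-/

set_option autoImplicit false

noncomputable section

namespace Fermat.Agent.LT.Compose

open Fermat.Agent.Arith (QBar GQ)
open Fermat.Agent.LT.Curve (Good badSet eta resMat resRep tau)
open Fermat.Agent.CFT.Flat (inG)

variable {W : WeierstrassCurve ℤ} (h : Good W)

/-- At every prime of the radical some inertia element acts residually as a transposition. -/
theorem exists_inertia_ne_one {v : ℕ} [Fact v.Prime] (hv : v ∣ rad W) :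
    ∃ t ∈ inG v, resRep W h.ne_zero t ≠ 1 :=
  have hb : v ∈ badSet W := (dvd_rad_iff Fact.out).mp hv
  ⟨tau h v, (Curve.tau_spec h hb).mem, fun e => Curve.resMat_ne_one_of_eta h.ne_zero
    (by rw [(Curve.tau_spec h hb).eta]; exact one_ne_zero) (congrArg Units.val e)⟩

/-- On inertia the residual representation is trivial exactly where a square root of `Δ` is
fixed. -/
theorem resRep_inertia_eq_one_iff {v : ℕ} [Fact v.Prime] {x : QBar}
    (hx : x ^ 2 = (W.Δ : QBar)) {g : GQ} (hg : g ∈ inG v) :
    resRep W h.ne_zero g = 1 ↔ g x = x := by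
  have hx0 : x ≠ 0 := fun h0 => h.ne_zero (by
    rw [h0, zero_pow two_ne_zero] at hx
    exact_mod_cast hx.symm)
  have key : eta W h.ne_zero g = 0 ↔ g x = x := by
    rw [← Curve.ch_Δ h.ne_zero]
    have hsq : (g x - x) * (g x + x) = 0 := by
      have e : (g x) ^ 2 = x ^ 2 := by rw [← map_pow, hx, map_intCast]
      linear_combination e
    rcases mul_eq_zero.mp hsq with e | e
    · refine iff_of_true (Selmer.ch_eq_of_sq h.ne_zero hx ?_) (sub_eq_zero.mp e)
      rw [Selmer.pm_zero, one_mul, sub_eq_zero.mp e]
    · have h1 : Selmer.ch W.Δ g = 1 := Selmer.ch_eq_of_sq h.ne_zero hx (by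
        rw [Selmer.pm_one, neg_one_mul, eq_neg_of_add_eq_zero_left e])
      refine iff_of_false (by rw [h1]; exact one_ne_zero) fun e' => ?_
      rw [e', ← two_mul] at e
      exact hx0 ((mul_eq_zero.mp e).resolve_left two_ne_zero)
  rw [← key]
  refine ⟨fun e => by_contra fun hne =>
    Curve.resMat_ne_one_of_eta h.ne_zero hne (congrArg Units.val e), fun hη => ?_⟩
  exact (resInput h).inertia v g hg hη

include h in
/-- The valuation of the discriminant at `2` is odd. -/
theorem odd_val_two : Odd (padicValInt 2 W.Δ) :=
  h.odd_val 2 Nat.prime_two (by exact_mod_cast h.two_dvd)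

end Fermat.Agent.LT.Compose
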