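import Fermat.Agent.LT.Compose.Input
import Fermat.Agent.LT.Lower.Defs
import Fermat.Agent.LT.Quat.ChiSum

/-!
# The system at the auxiliary level

From the facts at the points of a quaternionic level, the lines and the bound on the class group,
the deformation argument of `LT/Deform/Main` gives a system modulo a power of `2` for the switched
curve (`nonempty_system`), which may be rewritten at an equal level (`nonempty_system_of_d_eq`)
and reduced modulo a lower power (`reduceSystem`). It is used in `LT/Compose/Main`.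
-/

set_option autoImplicit false

noncomputable section

open Matrix

namespace Fermat.Agent.LT.Compose

open Fermat.Agent.Arith (QBar GQ)
open Fermat.Agent.LT.Deform (M2 Pts piIdeal pointIdeal)
open Fermat.Agent.LT.Curve (Good badSet resMat resRep rhoN tau)
open Fermat.Agent.LT.Selmer (HasLines Killed)
open WeierstrassCurve

/-- A homomorphism to a finite local ring pulls the nilradical back to a maximal ideal. -/
theorem piIdeal_isMaximal_of_finite {T Λ : Type} [CommRing T] [CommRing Λ] [Finite Λ]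
    [IsLocalRing Λ] (π : T →+* Λ) : (piIdeal π).IsMaximal := by
  have hm : (nilradical Λ).IsMaximal := by
    rw [Ring.KrullDimLE.nilradical_eq_maximalIdeal (R := Λ)]
    exact IsLocalRing.maximalIdeal.isMaximal Λ
  have : (piIdeal π).IsPrime := by
    rw [piIdeal]
    exact Ideal.IsPrime.comap π
  have : Finite (T ⧸ piIdeal π) :=
    have := Finite.of_surjective _ (Ideal.Quotient.mk_surjective (I := nilradical Λ))
    Finite.of_injective (Ideal.quotientMap (nilradical Λ) π le_rfl) Ideal.quotientMap_injective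
  exact Ideal.Quotient.maximal_of_isField _ (Finite.isField_of_domain (T ⧸ piIdeal π))

section Points

variable {T : Type} [CommRing T] [Module.Finite ℤ T] [Module.Free ℤ T] [IsReduced T]
  {Λ : Type} [CommRing Λ] [Algebra (ZMod 2) Λ] [Nontrivial Λ] {π : T →+* Λ}

omit [Nontrivial Λ] in
/-- The maximal ideal of `π` is met by a point. -/
theorem nonempty_pts (hmax : (piIdeal π).IsMaximal) : Nonempty (Pts A2 π) := by
  by_contra hno
  have h2 : (2 : T) ∈ piIdeal π := by
    rw [piIdeal, Ideal.mem_comap, map_ofNat, Deform.algebra_two_eq_zero]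
    exact zero_mem _
  obtain ⟨c, hc⟩ := Deform.exists_killer (K := K2) A2 two_inv_notMem (piIdeal π) h2
  obtain ⟨u, hu, hu'⟩ := hc 1
  obtain ⟨x', hx'⟩ := hu' 1 fun θ hθ => absurd ⟨⟨θ, hθ⟩⟩ hno
  refine hu ?_
  rw [mul_one, pow_one, zsmul_eq_mul] at hx'
  rw [hx', piIdeal, Ideal.mem_comap, map_mul, map_intCast, Int.cast_ofNat,
    Deform.algebra_two_eq_zero, zero_mul]
  exact zero_mem _

omit [Algebra (ZMod 2) Λ] [Nontrivial Λ] [Module.Free ℤ T] [IsReduced T] in
/-- At a point, `π x - n` is nilpotent exactly when the value of `x` is congruent to `n`. -/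
theorem sub_intCast_nilpotent_iff (θ : Pts A2 π) (x : T) (n : ℤ) :
    IsNilpotent (π x - (n : Λ)) ↔ ‖θ.1 x - (n : K2)‖₊ < 1 := by
  have e : x - (n : T) ∈ pointIdeal A2 θ.1 ↔ ‖θ.1 x - (n : K2)‖₊ < 1 := by
    rw [Deform.mem_pointIdeal, mem_maximal_iff]
    simp
  rw [← e, θ.2, piIdeal, Ideal.mem_comap, mem_nilradical, map_sub, map_intCast]

end Points

variable {W : WeierstrassCurve ℤ} (h : Good W) (p : Quat.Params)

theorem level_dvd_iff (hd : p.d = rad W) {l : ℕ} (hl : l.Prime) :
    l ∣ p.level ↔ l ∈ badSet W ∪ p.T := by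
  rw [Quat.Params.level, hl.dvd_mul, hd, dvd_rad_iff hl, Finset.mem_union, Quat.Params.P,
    dvd_prod_primes_iff (fun q hq => (p.T_prime q hq).1) hl]

variable {Λ : Type} [CommRing Λ] [Finite Λ] [Nontrivial Λ] [Algebra (ZMod 2) Λ] {ω : Λ}
  {C : Type} [CommGroup C] [Fintype C] {e : C →* Λˣ} {k : ℕ} (π : p.CuspHecke →+* Λ)

/-- Representations at the points with the wanted facts. -/
def HasFacts : Prop :=
  ∀ θ : Pts A2 π, ∃ ρ : GQ →* M2 A2,
    Facts p.tCusp p.level (resRep W h.ne_zero) (rad W) p.T θ.1 ρ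

/-- The residual congruence at the good primes outside `Z`. -/
def CongrOff (Z : Set ℕ) : Prop :=
  ∀ l : ℕ, l.Prime → ¬ l ∣ p.level → l ∉ Z → ∀ B : ValuationSubring QBar, B.LiesOverPrime l →
    ∀ F : GQ, B.IsFrobeniusAt F l →
      IsNilpotent (π (p.tCusp l) - (((resRep W h.ne_zero F : M2 (ZMod 2)).trace.val : ℕ) : Λ))

theorem trace_resMat_frobenius (hd : p.d = rad W) {l : ℕ} (hl : l.Prime) (hlv : ¬ l ∣ p.level)
    {B : ValuationSubring QBar} (hB : B.LiesOverPrime l) {F : GQ} (hF : B.IsFrobeniusAt F l) :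
    (resMat W h.ne_zero F).trace = (W.apOfModel l : ZMod 2) := by
  have hlS : l ∉ badSet W := fun hb =>
    hlv ((level_dvd_iff p hd hl).mpr (Finset.mem_union_left _ hb))
  have h1 := (Curve.trace_rhoN h 1 hl hlS hB hF).1
  have h2 := congrArg (ZMod.castHom (dvd_pow_self 2 one_ne_zero) (ZMod 2)) h1
  rw [map_intCast] at h2
  rw [← h2, show resMat W h.ne_zero F = (rhoN W h.ne_zero 1 F).map
    (ZMod.castHom (dvd_pow_self 2 one_ne_zero) (ZMod 2)) from
      (Curve.map_rhoN h.ne_zero one_pos F).symm]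
  exact (AddMonoidHom.map_trace
    (ZMod.castHom (dvd_pow_self 2 one_ne_zero) (ZMod 2)).toAddMonoidHom (rhoN W h.ne_zero 1 F)).symm

variable {h p π}

omit [Finite Λ] [Nontrivial Λ] in
/-- The congruence holds at every good prime. -/
theorem congr_all (hd : p.d = rad W) (hfacts : HasFacts h p π) (θ : Pts A2 π) {l : ℕ}
    (hl : l.Prime) (hlv : ¬ l ∣ p.level) :
    IsNilpotent (π (p.tCusp l) - (W.apOfModel l : Λ)) := by
  have hl2 : l ≠ 2 := fun e => hlv ((level_dvd_iff p hd hl).mpr
    (Finset.mem_union_left _ (e ▸ two_mem_badSet h)))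
  obtain ⟨B, hB⟩ := Arith.exists_liesOverPrime hl
  obtain ⟨F, hF⟩ := Arith.exists_isFrobeniusAt hB hl
  obtain ⟨ρ, hρ⟩ := hfacts θ
  obtain ⟨e, -⟩ := hρ.frobenius l hl hlv hl2 B hB F hF
  have hres := hρ.residual F
  rw [e] at hres
  have hv : IsNilpotent (π (p.tCusp l) -
      (((resRep W h.ne_zero F : M2 (ZMod 2)).trace.val : ℤ) : Λ)) :=
    (sub_intCast_nilpotent_iff θ _ _).mpr (by simpa using hres)
  obtain ⟨w, hw⟩ : (2 : ℤ) ∣
      ((resRep W h.ne_zero F : M2 (ZMod 2)).trace.val : ℤ) - W.apOfModel l := by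
    refine (ZMod.intCast_zmod_eq_zero_iff_dvd _ 2).mp ?_
    push_cast
    rw [ZMod.natCast_zmod_val, sub_eq_zero]
    exact trace_resMat_frobenius h p hd hl hlv hB hF
  rw [sub_eq_iff_eq_add] at hw
  rw [hw] at hv
  push_cast at hv
  rw [Deform.algebra_two_eq_zero, zero_mul, zero_add] at hv
  exact hv

/-- **The system at level `d ∏ T`, modulo `2 ^ N`.** -/
theorem nonempty_system {N : ℕ} [NeZero p.level] (hd : p.d = rad W) (hN : 2 ≤ N)
    (hQ : ∀ q ∈ p.T, AuxOK h N q) {s' : ℕ → M2 (ZMod 2)}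
    (hlines : HasLines (resRep W h.ne_zero) (badSet W) p.T
      (fun v => resMat W h.ne_zero (tau h v)) s')
    (hkill : Killed (resRep W h.ne_zero) (badSet W) p.T s')
    (hmax : (piIdeal π).IsMaximal) (hfacts : HasFacts h p π)
    (hbound : BoundBy h (rad W) (Fintype.card C))
    (homega : ω * ω + ω + 1 = 0) (hcard : Fintype.card C = 2 ^ k)
    (huni : ∀ c, IsNilpotent ((e c : Λ) - 1))
    (hindep : ∀ a b : C → ZMod 2,
      ∑ c, a c • (e c : Λ) + ω * ∑ c, b c • (e c : Λ) = 0 → a = 0 ∧ b = 0)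
    (hne : {c | ∃ l ∈ {l : ℕ | l.Prime ∧ ¬ l ∣ p.level},
      π (p.tCusp l) = ω * (e c : Λ) + ω * ω * (e c⁻¹ : Λ)}.Nonempty)
    (hclos : Subgroup.closure {c | ∃ l ∈ {l : ℕ | l.Prime ∧ ¬ l ∣ p.level},
      π (p.tCusp l) = ω * (e c : Λ) + ω * ω * (e c⁻¹ : Λ)} = ⊤) :
    Nonempty (Lower.System p.level N (Nat.card Λ) fun l => W.apOfModel l) := by
  obtain ⟨θ⟩ := nonempty_pts hmax
  choose ρ hρ using hfacts
  have hgen : Algebra.adjoin ℤ (p.tCusp '' {l : ℕ | l.Prime ∧ ¬ l ∣ p.level}) = ⊤ :=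
    p.gen_cuspHecke
  have hfacts' : HasFacts h p π := fun θ => ⟨ρ θ, hρ θ⟩
  obtain ⟨φ, u, hφ, hu, hs⟩ := Deform.exists_system A2 π two_inv_notMem ρ
    (a := fun l => W.apOfModel l) (N := N) (by omega) hgen
    (fun l hl => congr_all hd hfacts' θ hl.1 hl.2)
    fun M hM hfin hunit hker => input h hρ hN hM hQ (fun l hl => level_dvd_iff p hd hl)
      (NeZero.ne p.level) hlines hkill hgen hfin hunit hker
      (fun l hl hlv => congr_all hd hfacts' θ hl hlv)
      hbound homega hcard huni hindep hne hclos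
  exact ⟨
    { B := p.CuspHecke
      t := p.tCusp
      gen := hgen
      real := fun χ => by
        obtain ⟨g, hg, hc, -⟩ := p.exists_eigenform_of_point χ
        exact ⟨g, hg, fun l hl hlv => hc l ⟨hl, hlv⟩⟩
      φ := φ
      φ_t := fun l hl hlv => hφ l ⟨hl, hlv⟩
      e := u
      unit := hu
      small := hs }⟩

/-- Systems at `p.level`, rewritten at `d * ∏ T` for `p.d = d`. -/
theorem nonempty_system_of_d_eq {d : ℕ} (p : Quat.Params) [NeZero (d * ∏ q ∈ p.T, q)]
    (hd : p.d = d) {N k : ℕ} {a : ℕ → ℤ} [NeZero p.level]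
    (hS : Nonempty (Lower.System p.level N k a)) :
    Nonempty (Lower.System (d * ∏ q ∈ p.T, q) N k a) := by
  subst hd
  exact hS

/-- A system modulo a higher power gives one modulo a lower power. -/
def reduceSystem {L N N' h : ℕ} [NeZero L] {a : ℕ → ℤ} (hle : N ≤ N')
    (S : Lower.System L N' h a) : Lower.System L N h a :=
  { S with
    φ := (ZMod.castHom (pow_dvd_pow 2 hle) (ZMod (2 ^ N))).comp S.φ
    φ_t := fun l hl hlL => by rw [RingHom.comp_apply, S.φ_t l hl hlL, map_intCast]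
    unit := S.unit.map (ZMod.castHom (pow_dvd_pow 2 hle) (ZMod (2 ^ N))) }

end Fermat.Agent.LT.Compose
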